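import Fermat.Agent.Jac.Hilb.Semilinear

/-!
# S25: lifting invertible modules along nilpotent surjections
-/

set_option autoImplicit false
set_option linter.unusedSectionVars false
set_option linter.style.haveILetI false

universe u

open TensorProduct

namespace FLTAgent.Jac

variable {R S : Type u} [CommRing R] [CommRing S] {g : R →+* S}

/-- Nilpotent Nakayama. -/
theorem eq_top_of_sup_smul_top {P : Type u} [AddCommGroup P] [Module R P] {K : Ideal R}
    (hK : IsNilpotent K) {W : Submodule R P} (h : W ⊔ K • ⊤ = ⊤) : W = ⊤ := by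
  obtain ⟨n, hn⟩ := hK
  have hall : ∀ m : ℕ, W ⊔ K ^ m • (⊤ : Submodule R P) = ⊤ := by
    intro m
    induction m with
    | zero => simp [Ideal.one_eq_top]
    | succ m ih =>
      refine eq_top_iff.mpr ?_
      conv_lhs => rw [← ih, ← h]
      rw [pow_succ, Submodule.smul_sup, Submodule.mul_smul]
      refine sup_le le_sup_left (sup_le (le_sup_of_le_left Submodule.smul_le_right) ?_)
      exact le_sup_of_le_right (Submodule.smul_mono le_rfl (Submodule.smul_mono le_rfl le_top))
  have := hall n
  rwa [hn, Ideal.zero_eq_bot, Submodule.bot_smul, sup_bot_eq] at this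

theorem isUnit_of_sub_one_mem {K : Ideal R} (hK : IsNilpotent K) {c : R} (hc : c - 1 ∈ K) :
    IsUnit c := by
  obtain ⟨n, hn⟩ := hK
  have : IsNilpotent (c - 1) :=
    ⟨n, by simpa [hn] using Ideal.pow_mem_pow hc n⟩
  simpa using this.isUnit_add_one

/-- Surjectivity modulo a nilpotent ideal. -/
theorem surjective_of_comp_surjective (hn : IsNilpotent (RingHom.ker g)) {P Q : Type u}
    {Q' : Type u} [AddCommGroup P] [Module R P] [AddCommGroup Q] [Module R Q]
    [AddCommGroup Q'] [Module S Q'] {π : Q →ₛₗ[g] Q'}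
    (hπ : ∀ z, π z = 0 → z ∈ RingHom.ker g • (⊤ : Submodule R Q)) (θ : P →ₗ[R] Q)
    (h : ∀ q, ∃ z, π (θ z) = q) : Function.Surjective θ := by
  rw [← LinearMap.range_eq_top]
  refine eq_top_of_sup_smul_top hn (eq_top_iff.mpr fun q _ => ?_)
  obtain ⟨z, hz⟩ := h (π q)
  exact Submodule.mem_sup.mpr ⟨θ z, LinearMap.mem_range_self θ z, q - θ z,
    hπ _ (by rw [map_sub, hz, sub_self]), by abel⟩

theorem isNilpotent_ker_mapMatrix {n : ℕ} (hn : IsNilpotent (RingHom.ker g))
    (x : Matrix (Fin n) (Fin n) R) (hx : x ∈ RingHom.ker (g.mapMatrix (m := Fin n))) :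
    IsNilpotent x := by
  obtain ⟨m, hm⟩ := hn
  have hx' : ∀ i j, x i j ∈ RingHom.ker g := fun i j => by
    have := congrArg (fun N : Matrix (Fin n) (Fin n) S => N i j) (RingHom.mem_ker.mp hx)
    simpa using this
  have hp : ∀ l : ℕ, ∀ i j, (x ^ l) i j ∈ RingHom.ker g ^ l := by
    intro l
    induction l with
    | zero => intro i j; simp [Ideal.one_eq_top]
    | succ l ih =>
      intro i j
      rw [show x ^ (l + 1) = x ^ l * x from pow_succ x l, Matrix.mul_apply, pow_succ]
      exact Ideal.sum_mem _ fun a _ => Ideal.mul_mem_mul (ih i a) (hx' a j)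
  refine ⟨m, Matrix.ext fun i j => ?_⟩
  have := hp m i j
  rw [hm] at this
  simpa using this

/-- Finite projective modules lift along nilpotent surjections. -/
theorem exists_projective_lift (hg : Function.Surjective g) (hn : IsNilpotent (RingHom.ker g))
    (P' : Type u) [AddCommGroup P'] [Module S P'] [Module.Finite S P'] [Module.Projective S P'] :
    ∃ (P : Type u) (_ : AddCommGroup P) (_ : Module R P) (π : P →ₛₗ[g] P'),
      Module.Finite R P ∧ Module.Projective R P ∧ Function.Surjective π ∧
        ∀ z, π z = 0 → z ∈ RingHom.ker g • (⊤ : Submodule R P) := by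
  obtain ⟨n, s, sec, -, -, hsec⟩ := Module.Finite.exists_comp_eq_id_of_projective S P'
  let e' : Matrix (Fin n) (Fin n) S := LinearMap.toMatrix' (sec ∘ₗ s)
  have he' : IsIdempotentElem e' := by
    rw [IsIdempotentElem, ← LinearMap.toMatrix'_mul]
    congr 1
    refine LinearMap.ext fun v => ?_
    show sec (s (sec (s v))) = sec (s v)
    rw [show s (sec (s v)) = s v from congrArg (fun f => f (s v)) hsec]
  have hrange : e' ∈ (g.mapMatrix (m := Fin n)).range := by
    choose a ha using fun i j => hg (e' i j)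
    exact ⟨Matrix.of a, Matrix.ext fun i j => by simp [ha]⟩
  obtain ⟨e, he, hee'⟩ := exists_isIdempotentElem_eq_of_ker_isNilpotent (g.mapMatrix (m := Fin n))
    (isNilpotent_ker_mapMatrix hn) e' hrange he'
  let E : (Fin n → R) →ₗ[R] (Fin n → R) := Matrix.toLin' e
  have hEE : ∀ v, E (E v) = E v := fun v => by
    show Matrix.toLin' e (Matrix.toLin' e v) = _
    rw [← LinearMap.comp_apply, ← Matrix.toLin'_mul, he.eq]
  have hgE : ∀ v, (fun i => g (E v i)) = sec (s fun i => g (v i)) := fun v => by
    have h1 : (fun i => g (E v i)) = e'.mulVec fun i => g (v i) := by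
      funext i
      rw [← hee']
      simp [E, Matrix.mulVec, dotProduct, map_sum, map_mul]
    rw [h1, ← Matrix.toLin'_apply]
    show (Matrix.toLin' (LinearMap.toMatrix' (sec ∘ₗ s))) _ = _
    rw [Matrix.toLin'_toMatrix']
    rfl
  have hid : ∀ p', s (sec p') = p' := fun p' => congrArg (fun f => f p') hsec
  let π : LinearMap.range E →ₛₗ[g] P' :=
    { toFun := fun v => s fun i => g ((v : Fin n → R) i)
      map_add' := fun v w => by
        rw [← map_add]; congr 1; funext i; simp
      map_smul' := fun c v => by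
        rw [← map_smul]; congr 1; funext i; simp }
  refine ⟨LinearMap.range E, inferInstance, inferInstance, π, inferInstance, ?_, ?_, ?_⟩
  · refine Module.Projective.of_split (LinearMap.range E).subtype E.rangeRestrict ?_
    refine LinearMap.ext fun ⟨v, hv⟩ => Subtype.ext ?_
    obtain ⟨w, rfl⟩ := hv
    exact hEE w
  · intro p'
    choose v hv using fun i => hg (sec p' i)
    refine ⟨⟨E v, LinearMap.mem_range_self E v⟩, ?_⟩
    show s (fun i => g (E v i)) = p'
    rw [hgE, hid, show (fun i => g (v i)) = sec p' from funext hv, hid]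
  · rintro ⟨v, hv⟩ hz
    obtain ⟨w, rfl⟩ := hv
    change s (fun i => g (E w i)) = 0 at hz
    have h0 : ∀ i, E w i ∈ RingHom.ker g := fun i => by
      have := congrFun (hgE (E w)) i
      rw [hz, map_zero, hEE] at this
      exact this
    have : (⟨E w, LinearMap.mem_range_self E w⟩ : LinearMap.range E) =
        ∑ i, E w i • ⟨E (Pi.single i 1), LinearMap.mem_range_self E _⟩ := by
      apply Subtype.ext
      simp only [Submodule.coe_sum, Submodule.coe_smul, ← map_smul, ← map_sum]
      conv_lhs => rw [← hEE w]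
      congr 1
      funext j
      simp [Finset.sum_apply, Pi.single_apply]
    rw [this]
    exact Submodule.sum_mem _ fun i _ => Submodule.smul_mem_smul (h0 i) trivial

/-- Invertible modules lift along nilpotent surjections. -/
theorem exists_invertible_lift (hg : Function.Surjective g) (hn : IsNilpotent (RingHom.ker g))
    (P' : Type u) [AddCommGroup P'] [Module S P'] [Module.Invertible S P'] :
    ∃ (P : Type u) (_ : AddCommGroup P) (_ : Module R P) (π : P →ₛₗ[g] P'),
      Module.Invertible R P ∧ Function.Surjective π ∧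
        ∀ z, π z = 0 → z ∈ RingHom.ker g • (⊤ : Submodule R P) := by
  obtain ⟨P, _, _, π, hPf, hPp, hπ, hπker⟩ := exists_projective_lift hg hn P'
  obtain ⟨Q, _, _, σ, hQf, hQp, hσ, hσker⟩ := exists_projective_lift hg hn (Module.Dual S P')
  refine ⟨P, inferInstance, inferInstance, π, ?_, hπ, hπker⟩
  letI := g.toAlgebra
  letI : Module R P' := Module.compHom P' g
  haveI : IsScalarTower R S P' := ⟨fun r s p => by
    change (g r * s) • p = g r • (s • p); rw [mul_smul]⟩
  letI : Module R (Module.Dual S P') := Module.compHom _ g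
  haveI : IsScalarTower R S (Module.Dual S P') := ⟨fun r s p => by
    change (g r * s) • p = g r • (s • p); rw [mul_smul]⟩
  let πR : P →ₗ[R] P' :=
    { toFun := π, map_add' := map_add π, map_smul' := fun r z => π.map_smulₛₗ r z }
  let σR : Q →ₗ[R] Module.Dual S P' :=
    { toFun := σ, map_add' := map_add σ, map_smul' := fun r z => σ.map_smulₛₗ r z }
  have hbase : ∀ {N N' : Type u} [AddCommGroup N] [Module R N] [AddCommGroup N'] [Module R N']
      [Module S N'] [IsScalarTower R S N'] (φ : N →ₗ[R] N'),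
      Function.Surjective φ → (∀ z, φ z = 0 → z ∈ RingHom.ker g • (⊤ : Submodule R N)) →
      Function.Bijective (LinearMap.liftBaseChange S φ) := by
    intro N N' _ _ _ _ _ _ φ hφ hker
    have hform : ∀ t : S ⊗[R] N, ∃ z, t = 1 ⊗ₜ z := by
      intro t
      induction t using TensorProduct.induction_on with
      | zero => exact ⟨0, (tmul_zero _ _).symm⟩
      | tmul c z =>
        obtain ⟨r, rfl⟩ := hg c
        refine ⟨r • z, ?_⟩
        rw [tmul_smul, smul_tmul', Algebra.smul_def, mul_one]
        rfl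
      | add t t' h h' =>
        obtain ⟨z, rfl⟩ := h
        obtain ⟨z', rfl⟩ := h'
        exact ⟨z + z', (tmul_add _ _ _).symm⟩
    refine ⟨?_, fun q => ?_⟩
    · rw [← LinearMap.ker_eq_bot, Submodule.eq_bot_iff]
      intro t ht
      obtain ⟨z, rfl⟩ := hform t
      rw [LinearMap.mem_ker, LinearMap.liftBaseChange_tmul, one_smul] at ht
      refine Submodule.smul_induction_on (hker z ht) (fun c hc w _ => ?_) (fun x y hx hy => ?_)
      · rw [tmul_smul, smul_tmul', Algebra.smul_def, mul_one]
        show g c ⊗ₜ[R] w = 0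
        rw [RingHom.mem_ker.mp hc, zero_tmul]
      · rw [tmul_add, hx, hy, add_zero]
    · obtain ⟨z, hz⟩ := hφ q
      exact ⟨1 ⊗ₜ z, by simp [hz]⟩
  let eP := LinearEquiv.ofBijective _ (hbase πR hπ hπker)
  let eQ := LinearEquiv.ofBijective _ (hbase σR hσ hσker)
  let eT : S ⊗[R] (Q ⊗[R] P) ≃ₗ[S] S :=
    AlgebraTensorModule.distribBaseChange R S Q P ≪≫ₗ TensorProduct.congr eQ eP ≪≫ₗ
      Module.Invertible.linearEquiv S P'
  haveI : Module.Projective R (Q ⊗[R] P) := inferInstance
  obtain ⟨t, ht⟩ : ∃ t : Q ⊗[R] P, eT (1 ⊗ₜ t) = 1 := by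
    have : ∀ y : S ⊗[R] (Q ⊗[R] P), ∃ t, y = 1 ⊗ₜ t := by
      intro y
      induction y using TensorProduct.induction_on with
      | zero => exact ⟨0, (tmul_zero _ _).symm⟩
      | tmul c z =>
        obtain ⟨r, rfl⟩ := hg c
        refine ⟨r • z, ?_⟩
        rw [tmul_smul, smul_tmul', Algebra.smul_def, mul_one]
        rfl
      | add t t' h h' =>
        obtain ⟨z, rfl⟩ := h
        obtain ⟨z', rfl⟩ := h'
        exact ⟨z + z', (tmul_add _ _ _).symm⟩
    obtain ⟨t, ht⟩ := this (eT.symm 1)
    exact ⟨t, by rw [← ht, LinearEquiv.apply_symm_apply]⟩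
  let τ : Q ⊗[R] P →ₛₗ[g] S :=
    { toFun := fun z => eT (1 ⊗ₜ z)
      map_add' := fun z z' => by rw [tmul_add, map_add]
      map_smul' := fun r z => by
        rw [tmul_smul, ← IsScalarTower.algebraMap_smul S r, map_smul, smul_eq_mul]
        rfl }
  have hτ : ∀ z, τ z = 0 → z ∈ RingHom.ker g • (⊤ : Submodule R (Q ⊗[R] P)) := fun z hz =>
    mem_ker_smul_top_of_tmul_eq_zero (S := S) (eT.injective (hz.trans (map_zero eT).symm))
  let θ : R →ₗ[R] Q ⊗[R] P := LinearMap.toSpanSingleton R _ t
  have hθ : Function.Surjective θ := surjective_of_comp_surjective hn hτ θ fun c => by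
    obtain ⟨r, rfl⟩ := hg c
    refine ⟨r, ?_⟩
    rw [show θ r = r • t from rfl, τ.map_smulₛₗ, show τ t = 1 from ht]
    simp
  have hθinj : Function.Injective θ := by
    obtain ⟨ψ, hψ⟩ := Module.projective_lifting_property θ LinearMap.id hθ
    have hψ' : ∀ z, θ (ψ z) = z := fun z => congrArg (fun f => f z) hψ
    set c := ψ t with hc
    have hct : θ (c - 1) = 0 := by rw [map_sub, hψ']; simp [θ]
    have hgc : g (c - 1) = 0 := by
      have h1 : τ (θ (c - 1)) = 0 := by rw [hct, map_zero]
      rw [show θ (c - 1) = (c - 1) • t from rfl, τ.map_smulₛₗ, show τ t = 1 from ht] at h1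
      simpa using h1
    have hu := isUnit_of_sub_one_mem hn (RingHom.mem_ker.mpr hgc)
    intro a b hab
    have h0 : θ (a - b) = 0 := by rw [map_sub, hab, sub_self]
    have h1 : (a - b) * c = 0 := by
      have := congrArg ψ h0
      rwa [show θ (a - b) = (a - b) • t from rfl, map_smul, map_zero, smul_eq_mul] at this
    exact sub_eq_zero.mp ((hu.mul_left_eq_zero).mp h1)
  exact Module.Invertible.right (LinearEquiv.ofBijective θ ⟨hθinj, hθ⟩).symm

/-- A lift of an invertible module makes surjective maps into it liftable. -/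
theorem exists_semilinear_lift {P Q Q' : Type u} [AddCommGroup P] [Module R P]
    [Module.Projective R P] [AddCommGroup Q] [Module R Q]
    [AddCommGroup Q'] [Module S Q'] (φ : P →ₛₗ[g] Q') (π : Q →ₛₗ[g] Q')
    (hπ : Function.Surjective π) : ∃ θ : P →ₗ[R] Q, ∀ z, π (θ z) = φ z := by
  letI : Module R Q' := Module.compHom Q' g
  let φR : P →ₗ[R] Q' :=
    { toFun := φ, map_add' := map_add φ, map_smul' := fun r z => φ.map_smulₛₗ r z }
  let πR : Q →ₗ[R] Q' :=
    { toFun := π, map_add' := map_add π, map_smul' := fun r z => π.map_smulₛₗ r z }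
  obtain ⟨θ, hθ⟩ := Module.projective_lifting_property πR φR hπ
  exact ⟨θ, fun z => congrArg (fun f => f z) hθ⟩

end FLTAgent.Jac
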