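import Fermat.Agent.Jac.Defs
import Fermat.Agent.Jac.Hilb.Nilp

/-!
# S25: line bundles lift along nilpotent thickenings
-/

set_option autoImplicit false
set_option linter.unusedSectionVars false
set_option linter.style.haveILetI false

universe u

open TensorProduct

namespace FLTAgent.Jac

noncomputable section

variable {k : Type u} [Field k] {M : Model k} {A : Type u} [CommRing A] [Algebra k A]
  {B : Type u} [CommRing B] [Algebra k B]

/-- Kernels of base changed maps are generated by the kernel. -/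
theorem ker_map_id_le (f : A →ₐ[k] B) (R : Type u) [CommRing R] [Algebra k R]
    {y : A ⊗[k] R} (hy : Algebra.TensorProduct.map f (AlgHom.id k R) y = 0) :
    y ∈ (RingHom.ker f).map (algebraMap A (A ⊗[k] R)) := by
  let bk := Module.Basis.ofVectorSpace k R
  let bA := Algebra.TensorProduct.basis A bk
  let bB := Algebra.TensorProduct.basis B bk
  have hrepr : ∀ (z : A ⊗[k] R) i,
      bB.repr (Algebra.TensorProduct.map f (AlgHom.id k R) z) i = f (bA.repr z i) := by
    intro z i
    induction z using TensorProduct.induction_on with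
    | zero => simp
    | tmul a s =>
      rw [Algebra.TensorProduct.map_tmul]
      simp only [bA, bB, Algebra.TensorProduct.basis_repr_tmul, AlgHom.coe_id, id_eq,
        Finsupp.smul_apply, Finsupp.mapRange_apply, smul_eq_mul, map_mul, AlgHom.commutes]
    | add z z' h h' => simp [map_add, h, h']
  rw [← bA.linearCombination_repr y, Finsupp.linearCombination_apply, Finsupp.sum]
  refine Ideal.sum_mem _ fun i _ => ?_
  rw [Algebra.smul_def]
  refine Ideal.mul_mem_right _ _ (Ideal.mem_map_of_mem _ ?_)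
  rw [RingHom.mem_ker, ← hrepr y i, hy]
  simp

theorem isNilpotent_ker_map_id {f : A →ₐ[k] B} (hnil : IsNilpotent (RingHom.ker f)) (R : Type u)
    [CommRing R] [Algebra k R] :
    IsNilpotent (RingHom.ker (Algebra.TensorProduct.map f (AlgHom.id k R)).toRingHom) := by
  obtain ⟨n, hn⟩ := hnil
  refine ⟨n, ?_⟩
  refine le_antisymm ?_ bot_le
  refine le_trans (Ideal.pow_right_mono (fun y hy => ker_map_id_le f R hy) n) ?_
  rw [← Ideal.map_pow, hn]
  simp

theorem map_id_surjective {f : A →ₐ[k] B} (hf : Function.Surjective f) (R : Type u)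
    [CommRing R] [Algebra k R] :
    Function.Surjective (Algebra.TensorProduct.map f (AlgHom.id k R)).toRingHom := by
  intro y
  induction y using TensorProduct.induction_on with
  | zero => exact ⟨0, map_zero _⟩
  | tmul c s =>
    obtain ⟨a, rfl⟩ := hf c
    exact ⟨a ⊗ₜ s, by simp⟩
  | add y y' h h' =>
    obtain ⟨z, rfl⟩ := h
    obtain ⟨z', rfl⟩ := h'
    exact ⟨z + z', map_add _ _ _⟩

theorem mapPM_ipA (f : A →ₐ[k] B) (y : M.Ap A) :
    M.mapPM f (M.ipA A y) = M.ipA B (M.mapP f y) := by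
  induction y using TensorProduct.induction_on with
  | zero => simp
  | tmul a s => simp [Model.mapPM, Model.mapP, Model.ipA]
  | add y y' h h' => simp [h, h']

theorem chartLift_mapPM_xU (f : A →ₐ[k] B) : M.mapPM f (M.xU A : M.Apm A) = (M.xU B : M.Apm B) := by
  simp [Model.mapPM, Model.xU]

theorem ipA_x (M : Model k) (A : Type u) [CommRing A] [Algebra k A] :
    M.ipA A ((1 : A) ⊗ₜ[k] M.x) = (M.xU A : M.Apm A) := by
  simp [Model.ipA, Model.xU]

theorem span_range_fn {f : A →ₐ[k] B} {L : LineData M A} {L' : LineData M B}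
    (φ : LineData.BCHom f L L') (hp : Submodule.span (M.Ap B) (Set.range φ.fp) = ⊤) :
    Submodule.span (M.Apm B) (Set.range φ.fn) = ⊤ := by
  refine eq_top_iff.mpr fun n _ => ?_
  obtain ⟨i, m, hm⟩ := L'.ρp_surj n
  have h1 : L'.ρp m ∈ Submodule.span (M.Apm B) (Set.range φ.fn) := by
    have hmem : m ∈ Submodule.span (M.Ap B) (Set.range φ.fp) := by rw [hp]; trivial
    refine Submodule.span_induction (p := fun m _ => L'.ρp m ∈ Submodule.span (M.Apm B)
      (Set.range φ.fn)) ?_ (by rw [map_zero]; exact zero_mem _) (fun x y _ _ hx hy => by rw [map_add]; exact add_mem hx hy)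
      (fun c x _ hx => by rw [map_smulₛₗ]; exact Submodule.smul_mem _ _ hx) hmem
    rintro _ ⟨z, rfl⟩
    exact Submodule.subset_span ⟨L.ρp z, φ.comm_p z⟩
  rw [← hm] at h1
  have := Submodule.smul_mem _ (↑(M.xU B ^ i)⁻¹ : M.Apm B) h1
  rwa [smul_smul, ← Units.val_pow_eq_pow_val, Units.inv_mul, one_smul] at this

/-- A lift of the chart `U₊` of a bundle. -/
structure ChartLift (f : A →ₐ[k] B) (L' : LineData M B) : Type (u + 1) where
  P : Type u
  N : Type u
  [addP : AddCommGroup P]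
  [modP : Module (M.Ap A) P]
  [invP : Module.Invertible (M.Ap A) P]
  [addN : AddCommGroup N]
  [modN : Module (M.Apm A) N]
  [invN : Module.Invertible (M.Apm A) N]
  π : P →ₛₗ[(M.mapP f).toRingHom] L'.Mp
  πN : N →ₛₗ[(M.mapPM f).toRingHom] L'.N
  ρ : P →ₛₗ[(M.ipA A).toRingHom] N
  π_surj : Function.Surjective π
  πN_surj : Function.Surjective πN
  ρ_inj : Function.Injective ρ
  ρ_surj : ∀ n : N, ∃ (i : ℕ) (z : P), (M.xU A : M.Apm A) ^ i • n = ρ z
  comm : ∀ z, πN (ρ z) = L'.ρp (π z)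

attribute [instance] ChartLift.addP ChartLift.modP ChartLift.invP ChartLift.addN ChartLift.modN
  ChartLift.invN

theorem nonempty_chartLift (f : A →ₐ[k] B) (hf : Function.Surjective f)
    (hnil : IsNilpotent (RingHom.ker f)) (L' : LineData M B) :
    Nonempty (ChartLift f L') := by
  obtain ⟨P, _, _, π, _, hπ, -⟩ := exists_invertible_lift (g := (M.mapP f).toRingHom)
    (map_id_surjective hf M.Rp) (isNilpotent_ker_map_id hnil M.Rp) L'.Mp
  letI : Algebra (M.Ap A) (M.Apm A) := (M.ipA A).toRingHom.toAlgebra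
  letI : Module (M.Ap A) L'.N := Module.compHom L'.N ((M.mapPM f).toRingHom.comp (M.ipA A).toRingHom)
  letI : Module (M.Apm A) L'.N := Module.compHom L'.N (M.mapPM f).toRingHom
  haveI : IsScalarTower (M.Ap A) (M.Apm A) L'.N := ⟨fun r s n => by
    exact (congrArg (fun c : M.Apm B => c • n) (map_mul (M.mapPM f) (M.ipA A r) s)).trans
      (mul_smul (M.mapPM f (M.ipA A r) : M.Apm B) (M.mapPM f s) n)⟩
  let φ : P →ₗ[M.Ap A] L'.N :=
    { toFun := fun z => L'.ρp (π z)
      map_add' := fun z z' => by rw [map_add, map_add]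
      map_smul' := fun c z => by
        rw [map_smulₛₗ, map_smulₛₗ]
        exact congrArg (fun t : M.Apm B => t • L'.ρp (π z)) (mapPM_ipA f c).symm }
  let Φ : M.Apm A ⊗[M.Ap A] P →ₗ[M.Apm A] L'.N := LinearMap.liftBaseChange (M.Apm A) φ
  let πN : M.Apm A ⊗[M.Ap A] P →ₛₗ[(M.mapPM f).toRingHom] L'.N :=
    { toFun := Φ, map_add' := map_add Φ, map_smul' := fun c z => Φ.map_smul c z }
  let ρ : P →ₛₗ[(M.ipA A).toRingHom] M.Apm A ⊗[M.Ap A] P :=
    { toFun := fun z => 1 ⊗ₜ z
      map_add' := fun z z' => tmul_add _ _ _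
      map_smul' := fun c z => by
        rw [tmul_smul, smul_tmul', smul_tmul', Algebra.smul_def, smul_eq_mul]
        rfl }
  have hcomm : ∀ z, πN (ρ z) = L'.ρp (π z) := fun z => by
    show Φ (1 ⊗ₜ z) = _
    rw [LinearMap.liftBaseChange_tmul, one_smul]
    rfl
  refine ⟨⟨P, M.Apm A ⊗[M.Ap A] P, π, πN, ρ, hπ, fun n => ?_, ?_, fun n => ?_, hcomm⟩⟩
  · obtain ⟨i, m, hm⟩ := L'.ρp_surj n
    obtain ⟨z, rfl⟩ := hπ m
    refine ⟨(↑(M.xU A ^ i)⁻¹ : M.Apm A) • ρ z, ?_⟩
    rw [πN.map_smulₛₗ, hcomm, ← hm, smul_smul]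
    have h1 : M.mapPM f (↑(M.xU A ^ i)⁻¹ : M.Apm A) * (M.xU B : M.Apm B) ^ i = 1 := by
      rw [← chartLift_mapPM_xU f, ← map_pow (M.mapPM f), ← map_mul (M.mapPM f), ← Units.val_pow_eq_pow_val,
        Units.inv_mul, map_one]
    change (M.mapPM f (↑(M.xU A ^ i)⁻¹ : M.Apm A) * (M.xU B : M.Apm B) ^ i) • n = n
    rw [h1, one_smul]
  · intro z z' h
    have hinj := Module.Flat.rTensor_preserves_injective_linearMap (M := P)
      (Algebra.linearMap (M.Ap A) (M.Apm A)) (LineData.unit M A).ρp_inj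
    have h' := @hinj ((1 : M.Ap A) ⊗ₜ z) ((1 : M.Ap A) ⊗ₜ z') (by
      rw [LinearMap.rTensor_tmul, LinearMap.rTensor_tmul]
      simp only [Algebra.linearMap_apply, map_one]
      exact h)
    simpa using congrArg (TensorProduct.lid (M.Ap A) P) h'
  · induction n using TensorProduct.induction_on with
    | zero => exact ⟨0, 0, by rw [smul_zero, map_zero]⟩
    | tmul a z =>
      obtain ⟨i, m, hm⟩ := LineData.exists_ipA_eq a
      refine ⟨i, m • z, ?_⟩
      rw [ρ.map_smulₛₗ, smul_tmul', smul_eq_mul, hm]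
      show (M.ipA A m) ⊗ₜ z = M.ipA A m • ((1 : M.Apm A) ⊗ₜ[M.Ap A] z)
      rw [smul_tmul', smul_eq_mul, mul_one]
    | add n n' h h' =>
      obtain ⟨i, m, hm⟩ := h
      obtain ⟨i', m', hm'⟩ := h'
      refine ⟨i + i', ((1 : A) ⊗ₜ[k] M.x) ^ i' • m + ((1 : A) ⊗ₜ[k] M.x) ^ i • m', ?_⟩
      rw [map_add, map_smulₛₗ, map_smulₛₗ, map_pow, map_pow, smul_add, ← hm, ← hm', smul_smul,
        smul_smul]
      change _ = (M.ipA A ((1 : A) ⊗ₜ[k] M.x) ^ i' * _) • n +
        (M.ipA A ((1 : A) ⊗ₜ[k] M.x) ^ i * _) • n'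
      rw [ipA_x, ← pow_add, ← pow_add, add_comm i' i]

theorem exists_lift_lineData (f : A →ₐ[k] B) (hf : Function.Surjective f)
    (hnil : IsNilpotent (RingHom.ker f)) (L' : LineData M B) :
    ∃ L : LineData M A, LineData.IsBC f L L' := by
  obtain ⟨Cp⟩ := nonempty_chartLift f hf hnil L'
  obtain ⟨Cm⟩ := nonempty_chartLift f hf hnil L'.swap
  letI : Module (M.Am A) Cm.P := Cm.modP
  haveI : Module.Invertible (M.Am A) Cm.P := Cm.invP
  letI : Module (M.Apm A) Cm.N := Cm.modN
  haveI : Module.Invertible (M.Apm A) Cm.N := Cm.invN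
  let πm : Cm.P →ₛₗ[(M.mapM f).toRingHom] L'.Mm := Cm.π
  let πn : Cm.N →ₛₗ[(M.mapPM f).toRingHom] L'.N := Cm.πN
  haveI : Module.Invertible (M.Apm B) L'.N := L'.invN
  obtain ⟨θ, hθ⟩ := exists_semilinear_lift πn Cp.πN Cp.πN_surj
  have hker : ∀ z, Cp.πN z = 0 →
      z ∈ RingHom.ker (M.mapPM f).toRingHom • (⊤ : Submodule (M.Apm A) Cp.N) := fun z hz =>
    mem_ker_smul_top_of_apply_eq_zero Cp.πN (by
      rw [eq_top_iff]; exact fun q _ => Submodule.subset_span (Cp.πN_surj q)) hz
  have hθs : Function.Surjective θ :=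
    surjective_of_comp_surjective (isNilpotent_ker_map_id hnil M.Rpm) hker θ fun q => by
      obtain ⟨z, hz⟩ := Cm.πN_surj q
      exact ⟨z, (hθ z).trans hz⟩
  have hθb := Module.Invertible.bijective_of_surjective hθs
  letI : Module A Cp.P := Module.compHom Cp.P (algebraMap A (M.Ap A))
  letI : Module A Cm.P := Module.compHom Cm.P (algebraMap A (M.Am A))
  letI : Module A Cp.N := Module.compHom Cp.N (algebraMap A (M.Apm A))
  haveI : IsScalarTower A (M.Ap A) Cp.P := ⟨fun a c z => by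
    rw [Algebra.smul_def, mul_smul]; rfl⟩
  haveI : IsScalarTower A (M.Am A) Cm.P := ⟨fun a c z => by
    rw [Algebra.smul_def, mul_smul]; rfl⟩
  haveI : IsScalarTower A (M.Apm A) Cp.N := ⟨fun a c z => by
    rw [Algebra.smul_def, mul_smul]; rfl⟩
  let ρm : Cm.P →ₛₗ[(M.imA A).toRingHom] Cp.N :=
    { toFun := fun z => θ (Cm.ρ z)
      map_add' := fun z z' => by rw [map_add, map_add]
      map_smul' := fun c z => by
        rw [Cm.ρ.map_smulₛₗ]
        exact θ.map_smul _ _ }
  let L : LineData M A :=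
    { Mp := Cp.P
      Mm := Cm.P
      N := Cp.N
      ρp := Cp.ρ
      ρm := ρm
      ρp_inj := Cp.ρ_inj
      ρm_inj := hθb.injective.comp Cm.ρ_inj
      ρp_surj := Cp.ρ_surj
      ρm_surj := fun n => by
        obtain ⟨n', rfl⟩ := hθb.surjective n
        obtain ⟨i, z, hz⟩ := Cm.ρ_surj n'
        refine ⟨i, z, ?_⟩
        show _ = θ (Cm.ρ z)
        rw [← hz, ← θ.map_smul]
        rfl }
  refine ⟨L, ⟨Cp.π, πm, Cp.πN, Cp.comm, fun z => (hθ _).trans (Cm.comm z)⟩, ?_, ?_⟩
  · rw [eq_top_iff]; exact fun q _ => Submodule.subset_span (Cp.π_surj q)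
  · rw [eq_top_iff]; exact fun q _ => Submodule.subset_span (Cm.π_surj q)

theorem rigidifiable_lift (e : M.Rm →ₐ[k] k) (f : A →ₐ[k] B) (hf : Function.Surjective f)
    (hnil : IsNilpotent (RingHom.ker f)) {L : LineData M A} {L' : LineData M B}
    (b : LineData.IsBC f L L') (h : LineData.Rigidifiable e L') : LineData.Rigidifiable e L := by
  obtain ⟨φ, -, hspan⟩ := b
  obtain ⟨φ', hφ'⟩ := h
  have hev : ∀ c : M.Am A, M.ptM (Model.constPt e B) (M.mapM f c) =
      f (M.ptM (Model.constPt e A) c) := fun c => by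
    induction c using TensorProduct.induction_on with
    | zero => simp
    | tmul a s => simp [Model.ptM, Model.mapM, Model.constPt, Algebra.ofId_apply]
    | add c c' h h' => simp [h, h']
  letI : Module (M.Am A) A := Module.compHom A (M.ptM (Model.constPt e A)).toRingHom
  letI : Module (M.Am A) B :=
    Module.compHom B (f.toRingHom.comp (M.ptM (Model.constPt e A)).toRingHom)
  let fA : A →ₗ[M.Am A] B :=
    { toFun := f, map_add' := map_add f, map_smul' := fun c a => map_mul f _ a }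
  let χ : L.Mm →ₗ[M.Am A] B :=
    { toFun := fun z => φ' (φ.fm z)
      map_add' := fun z z' => by rw [map_add, map_add]
      map_smul' := fun c z => by
        rw [map_smulₛₗ, map_smulₛₗ]
        change M.ptM (Model.constPt e B) (M.mapM f c) * _ = f (M.ptM (Model.constPt e A) c) * _
        rw [hev] }
  obtain ⟨ψ, hψ⟩ := Module.projective_lifting_property fA χ hf
  have hψ' : ∀ z, f (ψ z) = φ' (φ.fm z) := fun z => congrArg (fun g => g z) hψ
  let Ψ : L.Mm →ₛₗ[(M.ptM (Model.constPt e A)).toRingHom] A :=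
    { toFun := ψ, map_add' := map_add ψ, map_smul' := fun c z => ψ.map_smul c z }
  refine ⟨Ψ, ?_⟩
  let I : Ideal A :=
    { carrier := Set.range Ψ
      add_mem' := by rintro _ _ ⟨z, rfl⟩ ⟨z', rfl⟩; exact ⟨z + z', map_add _ _ _⟩
      zero_mem' := ⟨0, map_zero _⟩
      smul_mem' := by
        rintro a _ ⟨z, rfl⟩
        refine ⟨algebraMap A (M.Am A) a • z, ?_⟩
        rw [Ψ.map_smulₛₗ]
        change M.ptM (Model.constPt e A) (algebraMap A (M.Am A) a) * Ψ z = a * Ψ z
        rw [AlgHom.commutes]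
        rfl }
  have hI : I.map f.toRingHom = ⊤ := by
    rw [Ideal.eq_top_iff_one]
    obtain ⟨q, hq⟩ := hφ' 1
    rw [← hq]
    have hmem : q ∈ Submodule.span (M.Am B) (Set.range φ.fm) := by rw [hspan]; trivial
    refine Submodule.span_induction (p := fun q _ => φ' q ∈ I.map f.toRingHom) ?_
      (by rw [map_zero]; exact zero_mem _)
      (fun x y _ _ hx hy => by rw [map_add]; exact add_mem hx hy)
      (fun c x _ hx => by rw [map_smulₛₗ, smul_eq_mul]; exact Ideal.mul_mem_left _ _ hx) hmem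
    rintro _ ⟨z, rfl⟩
    rw [← hψ']
    exact Ideal.mem_map_of_mem f.toRingHom (I := I) ⟨z, rfl⟩
  obtain ⟨a, haI, ha⟩ := (Ideal.mem_map_iff_of_surjective f.toRingHom hf).mp
    (show (1 : B) ∈ I.map f.toRingHom by rw [hI]; trivial)
  have hu : IsUnit a := isUnit_of_sub_one_mem hnil (by
    rw [RingHom.mem_ker, map_sub, map_one, sub_eq_zero]; exact ha)
  intro c
  exact (show c ∈ I by rw [Ideal.eq_top_of_isUnit_mem I haI hu]; trivial)

end

end FLTAgent.Jac
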