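import Fermat.Agent.Jac.Coh
import Fermat.Agent.Jac.Ops
import Fermat.Agent.Jac.Hilb.Lift

/-!
# S25: uniqueness of limits over valuation rings
-/

set_option autoImplicit false
set_option linter.unusedSectionVars false
set_option linter.style.haveILetI false

universe u

open TensorProduct

namespace FLTAgent.Jac

noncomputable section

variable {k : Type u} [Field k] {M : Model k} {A : Type u} [CommRing A] [Algebra k A]
  {B : Type u} [CommRing B] [Algebra k B]

theorem exists_dvd_all {V : Type u} [CommRing V] [IsDomain V] [ValuationRing V] (S : Finset V)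
    (hS : S.Nonempty) : ∃ a ∈ S, ∀ b ∈ S, a ∣ b := by
  classical
  induction hS using Finset.Nonempty.cons_induction with
  | singleton a => exact ⟨a, Finset.mem_singleton_self a, fun b hb => by simp_all⟩
  | cons c S hc hS ih =>
    obtain ⟨a, haS, ha⟩ := ih
    rcases ValuationRing.dvd_total c a with h | h
    · refine ⟨c, Finset.mem_cons_self _ _, fun b hb => ?_⟩
      rcases Finset.mem_cons.mp hb with rfl | hb
      · exact dvd_rfl
      · exact h.trans (ha b hb)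
    · refine ⟨a, Finset.mem_cons_of_mem haS, fun b hb => ?_⟩
      rcases Finset.mem_cons.mp hb with rfl | hb
      · exact h
      · exact ha b hb

/-- A finite family in a projective module over a valuation ring has a content. -/
theorem exists_primitive {V : Type u} [CommRing V] [IsDomain V] [ValuationRing V] {P : Type u}
    [AddCommGroup P] [Module V P] [Module.Projective V P] (T : Finset P)
    (hT : ∃ y ∈ T, y ≠ 0) :
    ∃ v : V, v ≠ 0 ∧ (∀ y ∈ T, ∃ y', y = v • y') ∧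
      ∃ y ∈ T, ∀ y', y = v • y' → y' ∉ IsLocalRing.maximalIdeal V • (⊤ : Submodule V P) := by
  classical
  obtain ⟨s, hs⟩ := Module.projective_def'.mp ‹Module.Projective V P›
  have hls : ∀ y, Finsupp.linearCombination V id (s y) = y := fun y => congrArg (fun f => f y) hs
  obtain ⟨y₀, hy₀, hy₀0⟩ := hT
  let S : Finset V := T.biUnion fun y => (s y).support.image (s y)
  have hS : S.Nonempty := by
    have : (s y₀).support.Nonempty := Finsupp.support_nonempty_iff.mpr fun h =>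
      hy₀0 (by rw [← hls y₀, h, map_zero])
    obtain ⟨p, hp⟩ := this
    exact ⟨s y₀ p, Finset.mem_biUnion.mpr ⟨y₀, hy₀, Finset.mem_image_of_mem _ hp⟩⟩
  obtain ⟨v, hvS, hv⟩ := exists_dvd_all S hS
  obtain ⟨y₁, hy₁, hv₁⟩ := Finset.mem_biUnion.mp hvS
  obtain ⟨p₁, hp₁, hp₁v⟩ := Finset.mem_image.mp hv₁
  have hv0 : v ≠ 0 := hp₁v ▸ Finsupp.mem_support_iff.mp hp₁
  refine ⟨v, hv0, fun y hy => ?_, y₁, hy₁, fun y' hy' hmem => ?_⟩
  · have : ∀ p ∈ (s y).support, ∃ c, s y p = v * c := fun p hp =>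
      hv _ (Finset.mem_biUnion.mpr ⟨y, hy, Finset.mem_image_of_mem _ hp⟩)
    choose! c hc using this
    refine ⟨∑ p ∈ (s y).support, c p • p, ?_⟩
    conv_lhs => rw [← hls y]
    rw [Finsupp.linearCombination_apply, Finsupp.sum, Finset.smul_sum]
    exact Finset.sum_congr rfl fun p hp => by rw [hc p hp, mul_smul]; rfl
  · have h1 : s y' p₁ = 1 := by
      have := congrArg (fun z => s z p₁) hy'
      simp only [map_smul, Finsupp.smul_apply, smul_eq_mul, hp₁v] at this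
      exact mul_left_cancel₀ hv0 (by rw [mul_one]; exact this.symm)
    have h2 : s y' p₁ ∈ IsLocalRing.maximalIdeal V := by
      refine Submodule.smul_induction_on hmem (fun c hc z _ => ?_) (fun a b ha hb => ?_)
      · simp only [map_smul, Finsupp.smul_apply, smul_eq_mul]
        exact Ideal.mul_mem_right _ _ hc
      · rw [map_add, Finsupp.add_apply]; exact add_mem ha hb
    rw [h1] at h2
    exact (IsLocalRing.maximalIdeal.isMaximal V).ne_top ((Ideal.eq_top_iff_one _).mpr h2)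

theorem exists_linearMap_of_injective {R S : Type u} [CommRing R] [CommRing S] {g : R →+* S}
    {P Q Q' : Type u} [AddCommGroup P] [Module R P] [AddCommGroup Q] [Module R Q]
    [AddCommGroup Q'] [Module S Q'] (φ : Q →ₛₗ[g] Q') (hφ : Function.Injective φ)
    (h : P →ₛₗ[g] Q') (hex : ∀ z, ∃ w, φ w = h z) :
    ∃ θ : P →ₗ[R] Q, ∀ z, φ (θ z) = h z := by
  choose t ht using hex
  exact ⟨{ toFun := t
           map_add' := fun z z' => hφ (by rw [map_add, ht, ht, ht, map_add])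
           map_smul' := fun c z => hφ (by
             rw [φ.map_smulₛₗ, ht, ht, h.map_smulₛₗ, RingHom.id_apply]) }, ht⟩

/-- Denominators for the generic fibre. -/
theorem exists_denominator {V F : Type u} [CommRing V] [IsDomain V] [Algebra k V] [Field F]
    [Algebra k F] [Algebra V F] [IsScalarTower k V F] [IsFractionRing V F] {R : Type u}
    [CommRing R] [Algebra k R] {P P' : Type u} [AddCommGroup P] [Module (V ⊗[k] R) P]
    [AddCommGroup P'] [Module (F ⊗[k] R) P']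
    (φ : P →ₛₗ[(Algebra.TensorProduct.map (IsScalarTower.toAlgHom k V F)
      (AlgHom.id k R)).toRingHom] P')
    (hφ : Submodule.span (F ⊗[k] R) (Set.range φ) = ⊤) (q : P') :
    ∃ v : V, v ≠ 0 ∧ ∃ z, φ z =
      (Algebra.TensorProduct.map (IsScalarTower.toAlgHom k V F) (AlgHom.id k R))
        (algebraMap V (V ⊗[k] R) v) • q := by
  have hq : q ∈ Submodule.span (F ⊗[k] R) (Set.range φ) := by rw [hφ]; trivial
  have hscal : ∀ (v : V) z, φ (algebraMap V (V ⊗[k] R) v • z) =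
      (Algebra.TensorProduct.map (IsScalarTower.toAlgHom k V F) (AlgHom.id k R)) (algebraMap V (V ⊗[k] R) v) • φ z := fun v z => φ.map_smulₛₗ _ z
  refine Submodule.span_induction (p := fun q _ => ∃ v : V, v ≠ 0 ∧ ∃ z, φ z =
    (Algebra.TensorProduct.map (IsScalarTower.toAlgHom k V F) (AlgHom.id k R)) (algebraMap V (V ⊗[k] R) v) • q) ?_ ⟨1, one_ne_zero, 0, by rw [map_zero, smul_zero]⟩ ?_ ?_ hq
  · rintro _ ⟨z, rfl⟩
    exact ⟨1, one_ne_zero, z, by rw [map_one, map_one, one_smul]⟩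
  · rintro x y _ _ ⟨v, hv, z, hz⟩ ⟨v', hv', z', hz'⟩
    refine ⟨v * v', mul_ne_zero hv hv', algebraMap V (V ⊗[k] R) v' • z +
      algebraMap V (V ⊗[k] R) v • z', ?_⟩
    rw [map_add, hscal, hscal, hz, hz', smul_smul, smul_smul, map_mul, map_mul, smul_add,
      mul_comm ((Algebra.TensorProduct.map (IsScalarTower.toAlgHom k V F) (AlgHom.id k R)) (algebraMap V (V ⊗[k] R) v'))]
  · rintro c x _ ⟨v, hv, z, hz⟩
    obtain ⟨v', hv', c₀, hc⟩ : ∃ v' : V, v' ≠ 0 ∧ ∃ c₀, (Algebra.TensorProduct.map (IsScalarTower.toAlgHom k V F) (AlgHom.id k R)) c₀ =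
        (Algebra.TensorProduct.map (IsScalarTower.toAlgHom k V F) (AlgHom.id k R)) (algebraMap V (V ⊗[k] R) v') * c := by
      induction c using TensorProduct.induction_on with
      | zero => exact ⟨1, one_ne_zero, 0, by simp⟩
      | tmul b s =>
        obtain ⟨⟨a, d, hd⟩, hab⟩ := IsLocalization.surj (nonZeroDivisors V) b
        refine ⟨d, nonZeroDivisors.ne_zero hd, a ⊗ₜ s, ?_⟩
        simp only [Algebra.TensorProduct.map_tmul, Algebra.TensorProduct.algebraMap_apply,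
          Algebra.algebraMap_self, RingHom.id_apply, AlgHom.coe_id, id_eq, map_one,
          Algebra.TensorProduct.tmul_mul_tmul, one_mul, IsScalarTower.toAlgHom_apply]
        rw [← hab, mul_comm]
      | add c c' h h' =>
        obtain ⟨v₁, hv₁, c₁, hc₁⟩ := h
        obtain ⟨v₂, hv₂, c₂, hc₂⟩ := h'
        refine ⟨v₁ * v₂, mul_ne_zero hv₁ hv₂, algebraMap V (V ⊗[k] R) v₂ * c₁ +
          algebraMap V (V ⊗[k] R) v₁ * c₂, ?_⟩
        rw [map_add, map_mul, map_mul, hc₁, hc₂, map_mul, map_mul]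
        ring
    refine ⟨v * v', mul_ne_zero hv hv', c₀ • z, ?_⟩
    rw [φ.map_smulₛₗ]
    show (Algebra.TensorProduct.map (IsScalarTower.toAlgHom k V F) (AlgHom.id k R)) c₀ • φ z = _
    rw [hc, hz, smul_smul, smul_smul, map_mul, map_mul]
    congr 1
    ring

/-- A uniform denominator for a map into the generic fibre. -/
theorem exists_scaled {V F : Type u} [CommRing V] [IsDomain V] [Algebra k V] [Field F]
    [Algebra k F] [Algebra V F] [IsScalarTower k V F] [IsFractionRing V F] {R : Type u}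
    [CommRing R] [Algebra k R] {P Q P' : Type u} [AddCommGroup Q] [Module (V ⊗[k] R) Q]
    [Module.Finite (V ⊗[k] R) Q] [AddCommGroup P] [Module (V ⊗[k] R) P]
    [AddCommGroup P'] [Module (F ⊗[k] R) P']
    (φ : P →ₛₗ[(Algebra.TensorProduct.map (IsScalarTower.toAlgHom k V F)
      (AlgHom.id k R)).toRingHom] P')
    (hφ : Submodule.span (F ⊗[k] R) (Set.range φ) = ⊤)
    (h : Q →ₛₗ[(Algebra.TensorProduct.map (IsScalarTower.toAlgHom k V F)
      (AlgHom.id k R)).toRingHom] P') :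
    ∃ v : V, v ≠ 0 ∧ ∀ v' : V, ∀ z, ∃ w, φ w =
      (Algebra.TensorProduct.map (IsScalarTower.toAlgHom k V F) (AlgHom.id k R))
        (algebraMap V (V ⊗[k] R) (v' * v)) • h z := by
  classical
  obtain ⟨s, hs⟩ := Module.Finite.fg_top (R := V ⊗[k] R) (M := Q)
  choose d hd w hw using fun z : Q => exists_denominator φ hφ (h z)
  refine ⟨∏ z ∈ s, d z, Finset.prod_ne_zero_iff.mpr fun z _ => hd z, fun v' z => ?_⟩
  have hz : z ∈ Submodule.span (V ⊗[k] R) (s : Set Q) := by rw [hs]; trivial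
  refine Submodule.span_induction (p := fun z _ => ∃ w, φ w =
    (Algebra.TensorProduct.map (IsScalarTower.toAlgHom k V F) (AlgHom.id k R)) (algebraMap V (V ⊗[k] R) (v' * ∏ z ∈ s, d z)) • h z) ?_
    ⟨0, by rw [map_zero, map_zero, smul_zero]⟩ ?_ ?_ hz
  · intro z hz
    refine ⟨algebraMap V (V ⊗[k] R) (v' * ∏ x ∈ s.erase z, d x) • w z, ?_⟩
    rw [φ.map_smulₛₗ]
    show (Algebra.TensorProduct.map (IsScalarTower.toAlgHom k V F) (AlgHom.id k R)) _ • φ (w z) = _
    rw [hw, smul_smul, ← map_mul, ← map_mul, mul_assoc, Finset.prod_erase_mul _ _ hz]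
  · rintro x y _ _ ⟨a, ha⟩ ⟨b, hb⟩
    exact ⟨a + b, by rw [map_add, map_add, smul_add, ha, hb]⟩
  · rintro c x _ ⟨a, ha⟩
    refine ⟨c • a, ?_⟩
    rw [φ.map_smulₛₗ, h.map_smulₛₗ, ha, smul_comm]

/-- A map of finite modules over `V ⊗ R` is surjective if it is so on all geometric fibres. -/
theorem surjective_of_fibres {V : Type u} [CommRing V] [Algebra k V] {R : Type u} [CommRing R]
    [Algebra k R] {P Q : Type u} [AddCommGroup P] [Module (V ⊗[k] R) P] [AddCommGroup Q]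
    [Module (V ⊗[k] R) Q] [Module.Finite (V ⊗[k] R) Q] (θ : P →ₗ[V ⊗[k] R] Q)
    (H : ∀ (K : Type u) [Field K] [Algebra k K] [IsAlgClosed K] (f : V →ₐ[k] K) (T : Type u)
      [AddCommGroup T] [Module (K ⊗[k] R) T]
      (l : Q →ₛₗ[(Algebra.TensorProduct.map f (AlgHom.id k R)).toRingHom] T),
      (∀ z, l (θ z) = 0) → l = 0) :
    Function.Surjective θ := by
  rw [← LinearMap.range_eq_top]
  by_contra hne
  obtain ⟨W, hW, hle⟩ := (eq_top_or_exists_le_coatom (LinearMap.range θ)).resolve_left hne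
  obtain ⟨I, hI, ⟨e⟩⟩ := isSimpleModule_iff_quot_maximal.mp (isSimpleModule_iff_isCoatom.mpr hW)
  haveI := hI
  letI : Field ((V ⊗[k] R) ⧸ I) := Ideal.Quotient.field I
  let j : V ⊗[k] R →ₐ[k] AlgebraicClosure ((V ⊗[k] R) ⧸ I) :=
    (IsScalarTower.toAlgHom k ((V ⊗[k] R) ⧸ I) _).comp (Ideal.Quotient.mkₐ k I)
  let f : V →ₐ[k] AlgebraicClosure ((V ⊗[k] R) ⧸ I) :=
    j.comp Algebra.TensorProduct.includeLeft
  let ε : AlgebraicClosure ((V ⊗[k] R) ⧸ I) ⊗[k] R →ₐ[k]
      AlgebraicClosure ((V ⊗[k] R) ⧸ I) :=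
    Algebra.TensorProduct.lift (AlgHom.id k _) (j.comp Algebra.TensorProduct.includeRight)
      fun _ _ => mul_comm _ _
  letI : Module (AlgebraicClosure ((V ⊗[k] R) ⧸ I) ⊗[k] R)
      (AlgebraicClosure ((V ⊗[k] R) ⧸ I)) := Module.compHom _ ε.toRingHom
  have hε : ∀ c, ε (Algebra.TensorProduct.map f (AlgHom.id k R) c) = j c := fun c => by
    induction c using TensorProduct.induction_on with
    | zero => simp
    | tmul a s =>
      change j (a ⊗ₜ[k] (1 : R)) * j ((1 : V) ⊗ₜ[k] s) = _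
      rw [← map_mul, Algebra.TensorProduct.tmul_mul_tmul, mul_one, one_mul]
    | add c c' h h' => simp [h, h']
  let l : Q →ₛₗ[(Algebra.TensorProduct.map f (AlgHom.id k R)).toRingHom]
      AlgebraicClosure ((V ⊗[k] R) ⧸ I) :=
    { toFun := fun z => algebraMap ((V ⊗[k] R) ⧸ I) _ (e (Submodule.Quotient.mk z))
      map_add' := fun z z' => by rw [Submodule.Quotient.mk_add, map_add, map_add]
      map_smul' := fun c z => by
        rw [Submodule.Quotient.mk_smul, map_smul, Algebra.smul_def, map_mul]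
        exact congrArg (· * _) (hε c).symm }
  have hl := H _ f _ l fun z => by
    show algebraMap ((V ⊗[k] R) ⧸ I) _ (e (Submodule.Quotient.mk (θ z))) = 0
    rw [(Submodule.Quotient.mk_eq_zero W).mpr (hle (LinearMap.mem_range_self θ z)), map_zero,
      map_zero]
  obtain ⟨z, hz⟩ := Submodule.Quotient.mk_surjective W (e.symm 1)
  have h1 := congrArg (fun m => m z) hl
  change algebraMap ((V ⊗[k] R) ⧸ I) _ (e (Submodule.Quotient.mk z)) = 0 at h1
  rw [hz, e.apply_symm_apply, map_one] at h1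
  exact one_ne_zero h1

/-- Bundles with the same Euler characteristic over an algebraically closed field: nonzero maps
are isomorphisms. -/
theorem hom_bijective_of_chi_eq {K : Type u} [Field K] [Algebra k K] [IsAlgClosed K]
    {L L' : LineData M K} (f : LineData.Hom L L') (hne : f.fp ≠ 0 ∨ f.fm ≠ 0)
    (hchi : L.chi = L'.chi) :
    Function.Bijective f.fp ∧ Function.Bijective f.fm ∧ Function.Bijective f.fn := by
  haveI : IsDomain (M.Ap K) := (M.dedekind_p K).1
  have hfp0 : f.fp ≠ 0 := by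
    intro h0
    have hn : ∀ n, f.fn n = 0 := fun n => by
      obtain ⟨i, m, hm⟩ := L.ρp_surj n
      have h1 : (M.xU K : M.Apm K) ^ i • f.fn n = 0 := by
        rw [← map_smul, hm, f.comm_p, h0, LinearMap.zero_apply, map_zero]
      rwa [← Units.val_pow_eq_pow_val, (M.xU K ^ i).isUnit.smul_eq_zero] at h1
    refine hne.elim (fun h => h h0) fun h => h (LinearMap.ext fun m => L'.ρm_inj ?_)
    rw [← f.comm_m, hn, LinearMap.zero_apply, map_zero]
  have hpi := injective_of_ne_zero f.fp hfp0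
  have hni : Function.Injective f.fn := by
    rw [← LinearMap.ker_eq_bot, Submodule.eq_bot_iff]
    intro n hn
    obtain ⟨i, m, hm⟩ := L.ρp_surj n
    have h1 : L'.ρp (f.fp m) = L'.ρp 0 := by
      rw [← f.comm_p, ← hm, map_smul, LinearMap.mem_ker.mp hn, smul_zero, map_zero]
    have h2 : m = 0 := hpi ((L'.ρp_inj h1).trans (map_zero f.fp).symm)
    rw [h2, map_zero, ← Units.val_pow_eq_pow_val, (M.xU K ^ i).isUnit.smul_eq_zero] at hm
    exact hm
  have hmi : Function.Injective f.fm := fun a b hab =>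
    L.ρm_inj (hni (by rw [f.comm_m, f.comm_m, hab]))
  obtain ⟨n₀, hn₀⟩ := exists_acyclic_twist L
  obtain ⟨n₁, hn₁⟩ := exists_acyclic_twist L'
  have key : ∀ n : ℕ, n₀ ≤ n → n₁ ≤ n → ∀ (a : L'.Mp) (b : L'.Mm),
      L'.ρp a = (M.xU K : M.Apm K) ^ n • L'.ρm b →
        a ∈ LinearMap.range f.fp ∧ b ∈ LinearMap.range f.fm := by
    intro n h0 h1 a b hab
    have hpow : (↑(M.xU K ^ (n : ℤ)) : M.Apm K) = (M.xU K : M.Apm K) ^ n := by
      rw [zpow_natCast, Units.val_pow_eq_pow_val]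
    have hmem : ∀ (L₀ : LineData M K) (p : L₀.Mp) (q : L₀.Mm),
        ((p, q) : (L₀.twist n).Mp × (L₀.twist n).Mm) ∈ (L₀.twist n).H0 ↔
          L₀.ρp p = (M.xU K : M.Apm K) ^ n • L₀.ρm q := by
      intro L₀ p q
      rw [LinearMap.mem_ker, ← hpow]
      exact sub_eq_zero
    have hmaps : ∀ v ∈ (L.twist n).H0,
        ((f.fp v.1, f.fm v.2) : (L'.twist n).Mp × (L'.twist n).Mm) ∈ (L'.twist n).H0 := by
      rintro ⟨p, q⟩ hv
      rw [hmem] at hv ⊢
      rw [← f.comm_p, ← f.comm_m, ← map_smul, hv]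
    let Φ : (L.twist n).H0 →ₗ[K] (L'.twist n).H0 :=
      { toFun := fun v => ⟨(f.fp v.1.1, f.fm v.1.2), hmaps v.1 v.2⟩
        map_add' := fun v w => Subtype.ext (Prod.ext (map_add _ _ _) (map_add _ _ _))
        map_smul' := fun c v => Subtype.ext (Prod.ext (LinearMap.map_smul_of_tower _ c _)
          (LinearMap.map_smul_of_tower _ c _)) }
    have hΦ : Function.Injective Φ := fun v w h => by
      have h' := congrArg Subtype.val h
      exact Subtype.ext (Prod.ext (hpi (congrArg Prod.fst h')) (hmi (congrArg Prod.snd h')))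
    have hrank : Module.finrank K (L.twist n).H0 = Module.finrank K (L'.twist n).H0 := by
      have h2 : (L.twist n).chi = (L'.twist n).chi := by rw [chi_twist, chi_twist, hchi]
      have e0 : ∀ L₀ : LineData M K, L₀.Acyclic → L₀.chi = (Module.finrank K L₀.H0 : ℤ) := by
        intro L₀ h
        haveI : Subsingleton L₀.H1 :=
          Submodule.Quotient.subsingleton_iff.mpr (LinearMap.range_eq_top.mpr h)
        simp [LineData.chi, Module.finrank_zero_of_subsingleton]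
      rw [e0 _ (hn₀ n h0), e0 _ (hn₁ n h1)] at h2
      exact_mod_cast h2
    haveI := finite_H0_of_field (L.twist n)
    haveI := finite_H0_of_field (L'.twist n)
    obtain ⟨v, hv⟩ := (LinearMap.injective_iff_surjective_of_finrank_eq_finrank hrank).mp hΦ
      ⟨(a, b), (hmem L' a b).mpr hab⟩
    have h' := congrArg Subtype.val hv
    exact ⟨⟨v.1.1, congrArg Prod.fst h'⟩, ⟨v.1.2, congrArg Prod.snd h'⟩⟩
  have hps : Function.Surjective f.fp := fun a => by
    obtain ⟨j, b, hb⟩ := L'.ρm_surj (L'.ρp a)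
    let n := max (max n₀ n₁) j
    refine (key n (le_trans (le_max_left _ _) (le_max_left _ _))
      (le_trans (le_max_right _ _) (le_max_left _ _)) a
      (((1 : K) ⊗ₜ[k] M.y) ^ (n - j) • b) ?_).1
    have hy : M.imA K ((1 : K) ⊗ₜ[k] M.y) = (↑(M.xU K)⁻¹ : M.Apm K) := by
      simp [Model.imA, Model.xU]
    rw [L'.ρm.map_smulₛₗ, ← hb]
    change _ = _ • M.imA K (((1 : K) ⊗ₜ[k] M.y) ^ (n - j)) • _
    rw [map_pow, hy, smul_smul, smul_smul, mul_assoc, ← pow_add,
      Nat.sub_add_cancel (le_max_right _ _), ← mul_pow, Units.mul_inv, one_pow, one_smul]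
  have hms : Function.Surjective f.fm := fun b => by
    obtain ⟨j, a, ha⟩ := L'.ρp_surj (L'.ρm b)
    let n := max (max n₀ n₁) j
    refine (key n (le_trans (le_max_left _ _) (le_max_left _ _))
      (le_trans (le_max_right _ _) (le_max_left _ _))
      (((1 : K) ⊗ₜ[k] M.x) ^ (n - j) • a) b ?_).2
    rw [L'.ρp.map_smulₛₗ, ← ha]
    change M.ipA K (((1 : K) ⊗ₜ[k] M.x) ^ (n - j)) • _ = _
    rw [map_pow, ipA_x, smul_smul, ← pow_add, Nat.sub_add_cancel (le_max_right _ _)]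
  refine ⟨⟨hpi, hps⟩, ⟨hmi, hms⟩, hni, fun n => ?_⟩
  obtain ⟨i, m, hm⟩ := L'.ρp_surj n
  obtain ⟨m', rfl⟩ := hps m
  refine ⟨(↑(M.xU K ^ i)⁻¹ : M.Apm K) • L.ρp m', ?_⟩
  rw [map_smul, f.comm_p, ← hm, smul_smul, ← Units.val_pow_eq_pow_val, Units.inv_mul, one_smul]

/-- The induced map on a fibre. -/
theorem exists_fibre_hom {f : A →ₐ[k] B} {L₁ L₂ : LineData M A} {G₁ G₂ : LineData M B}
    (θ : LineData.Hom L₁ L₂) (ψ₁ : LineData.BCHom f L₁ G₁) (ψ₂ : LineData.BCHom f L₂ G₂)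
    (hp : Submodule.span (M.Ap B) (Set.range ψ₁.fp) = ⊤)
    (hm : Submodule.span (M.Am B) (Set.range ψ₁.fm) = ⊤) :
    ∃ φ : LineData.Hom G₁ G₂, (∀ z, φ.fp (ψ₁.fp z) = ψ₂.fp (θ.fp z)) ∧
      ∀ z, φ.fm (ψ₁.fm z) = ψ₂.fm (θ.fm z) := by
  have hn := span_range_fn ψ₁ hp
  obtain ⟨hp', hp''⟩ := exists_semilinear_extend ψ₁.fp hp (ψ₂.fp.comp θ.fp)
  obtain ⟨hm', hm''⟩ := exists_semilinear_extend ψ₁.fm hm (ψ₂.fm.comp θ.fm)
  obtain ⟨hn', hn''⟩ := exists_semilinear_extend ψ₁.fn hn (ψ₂.fn.comp θ.fn)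
  refine ⟨⟨hp', hm', hn', fun m => ?_, fun m => ?_⟩, hp'', hm''⟩
  · have hmem : m ∈ Submodule.span (M.Ap B) (Set.range ψ₁.fp) := by rw [hp]; trivial
    refine Submodule.span_induction (p := fun m _ => hn' (G₁.ρp m) = G₂.ρp (hp' m)) ?_
      (by rw [map_zero, map_zero, map_zero, map_zero]) ?_ ?_ hmem
    · rintro _ ⟨z, rfl⟩
      rw [← ψ₁.comm_p, hn'', hp'', LinearMap.comp_apply, LinearMap.comp_apply, θ.comm_p,
        ψ₂.comm_p]
    · intro x y _ _ hx hy
      rw [map_add, map_add, map_add, map_add, hx, hy]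
    · intro c x _ hx
      rw [G₁.ρp.map_smulₛₗ, map_smul, hx, map_smul, G₂.ρp.map_smulₛₗ]
  · have hmem : m ∈ Submodule.span (M.Am B) (Set.range ψ₁.fm) := by rw [hm]; trivial
    refine Submodule.span_induction (p := fun m _ => hn' (G₁.ρm m) = G₂.ρm (hm' m)) ?_
      (by rw [map_zero, map_zero, map_zero, map_zero]) ?_ ?_ hmem
    · rintro _ ⟨z, rfl⟩
      rw [← ψ₁.comm_m, hn'', hm'', LinearMap.comp_apply, LinearMap.comp_apply, θ.comm_m,
        ψ₂.comm_m]
    · intro x y _ _ hx hy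
      rw [map_add, map_add, map_add, map_add, hx, hy]
    · intro c x _ hx
      rw [G₁.ρm.map_smulₛₗ, map_smul, hx, map_smul, G₂.ρm.map_smulₛₗ]

/-- An element dying in a fibre is divisible by the maximal ideal. -/
theorem mem_maximalIdeal_smul_of_fibre {V : Type u} [CommRing V] [IsLocalRing V] [Algebra k V]
    {K : Type u} [Field K] [Algebra k K] (f : V →ₐ[k] K) {R : Type u} [CommRing R] [Algebra k R]
    {P P' : Type u} [AddCommGroup P] [Module (V ⊗[k] R) P] [Module.Invertible (V ⊗[k] R) P]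
    [Module V P] [IsScalarTower V (V ⊗[k] R) P] [AddCommGroup P'] [Module (K ⊗[k] R) P']
    [Module.Invertible (K ⊗[k] R) P']
    (ψ : P →ₛₗ[(Algebra.TensorProduct.map f (AlgHom.id k R)).toRingHom] P')
    (hψ : Submodule.span (K ⊗[k] R) (Set.range ψ) = ⊤) {z : P} (hz : ψ z = 0) :
    z ∈ IsLocalRing.maximalIdeal V • (⊤ : Submodule V P) := by
  have h1 := mem_ker_smul_top_of_apply_eq_zero ψ hψ hz
  have h2 : ∀ (c : V ⊗[k] R), c ∈ (RingHom.ker f).map (algebraMap V (V ⊗[k] R)) → ∀ w : P,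
      c • w ∈ RingHom.ker f • (⊤ : Submodule V P) := by
    intro c hc
    refine Submodule.span_induction (p := fun c _ => ∀ w : P,
      c • w ∈ RingHom.ker f • (⊤ : Submodule V P)) ?_ ?_ ?_ ?_ hc
    · rintro _ ⟨a, ha, rfl⟩ w
      rw [IsScalarTower.algebraMap_smul]
      exact Submodule.smul_mem_smul ha trivial
    · intro w; rw [zero_smul]; exact zero_mem _
    · intro x y _ _ hx hy w; rw [add_smul]; exact add_mem (hx w) (hy w)
    · intro d x _ hx w
      rw [smul_eq_mul, mul_comm, mul_smul]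
      exact hx _
  have h3 : z ∈ RingHom.ker f • (⊤ : Submodule V P) :=
    Submodule.smul_induction_on h1 (fun c hc w _ => h2 c (ker_map_id_le f R hc) w)
      fun a b ha hb => add_mem ha hb
  exact Submodule.smul_mono_left (IsLocalRing.le_maximalIdeal (RingHom.ker_ne_top f)) h3

theorem injective_generic {V F : Type u} [CommRing V] [Algebra k V] [Field F]
    [Algebra k F] [Algebra V F] [IsScalarTower k V F] [IsFractionRing V F] {R : Type u}
    [CommRing R] [Algebra k R] {P P' : Type u} [AddCommGroup P] [Module (V ⊗[k] R) P]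
    [Module.Invertible (V ⊗[k] R) P] [AddCommGroup P'] [Module (F ⊗[k] R) P']
    [Module.Invertible (F ⊗[k] R) P']
    (φ : P →ₛₗ[(Algebra.TensorProduct.map (IsScalarTower.toAlgHom k V F)
      (AlgHom.id k R)).toRingHom] P')
    (hφ : Submodule.span (F ⊗[k] R) (Set.range φ) = ⊤) : Function.Injective φ := by
  refine injective_of_ker_eq_bot φ hφ (eq_bot_iff.mpr fun y hy => ?_)
  have := ker_map_id_le (IsScalarTower.toAlgHom k V F) R hy
  rwa [show RingHom.ker (IsScalarTower.toAlgHom k V F) = ⊥ from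
    (RingHom.injective_iff_ker_eq_bot _).mp (IsFractionRing.injective V F), Ideal.map_bot] at this

theorem isUnit_generic {V F : Type u} [CommRing V] [Algebra k V] [Field F]
    [Algebra k F] [Algebra V F] [IsScalarTower k V F] [IsFractionRing V F] (R : Type u)
    [CommRing R] [Algebra k R] {v : V} (hv : v ≠ 0) :
    IsUnit ((Algebra.TensorProduct.map (IsScalarTower.toAlgHom k V F) (AlgHom.id k R))
      (algebraMap V (V ⊗[k] R) v)) := by
  rw [show (Algebra.TensorProduct.map (IsScalarTower.toAlgHom k V F) (AlgHom.id k R))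
      (algebraMap V (V ⊗[k] R) v) = algebraMap F (F ⊗[k] R) (algebraMap V F v) by
    simp [Algebra.TensorProduct.algebraMap_apply]]
  exact ((IsFractionRing.injective V F).ne hv |> fun h => Ne.isUnit (by simpa using h)).map _

theorem injective_smul_generic {V F : Type u} [CommRing V] [Algebra k V] [Field F]
    [Algebra k F] [Algebra V F] [IsScalarTower k V F] [IsFractionRing V F] {R : Type u}
    [CommRing R] [Algebra k R] {P P' : Type u} [AddCommGroup P] [Module (V ⊗[k] R) P]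
    [Module V P] [IsScalarTower V (V ⊗[k] R) P] [AddCommGroup P'] [Module (F ⊗[k] R) P']
    (φ : P →ₛₗ[(Algebra.TensorProduct.map (IsScalarTower.toAlgHom k V F)
      (AlgHom.id k R)).toRingHom] P')
    (hφ : Function.Injective φ) {v : V} (hv : v ≠ 0) :
    Function.Injective (fun w : P => v • w) := by
  intro a b hab
  apply hφ
  have h := congrArg φ hab
  simp only [← IsScalarTower.algebraMap_smul (V ⊗[k] R) v, φ.map_smulₛₗ] at h
  exact (isUnit_generic (F := F) R hv).smul_left_cancel.mp h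

theorem exists_scaled_hom {V F : Type u} [CommRing V] [IsDomain V] [Algebra k V]
    [Field F] [Algebra k F] [Algebra V F] [IsScalarTower k V F] [IsFractionRing V F]
    {L₁ L₂ : LineData M V} {G₁ G₂ : LineData M F}
    (φ₁ : LineData.BCHom (IsScalarTower.toAlgHom k V F) L₁ G₁)
    (hp₁ : Submodule.span (M.Ap F) (Set.range φ₁.fp) = ⊤)
    (φ₂ : LineData.BCHom (IsScalarTower.toAlgHom k V F) L₂ G₂)
    (hp₂ : Submodule.span (M.Ap F) (Set.range φ₂.fp) = ⊤)
    (hm₂ : Submodule.span (M.Am F) (Set.range φ₂.fm) = ⊤)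
    (e : LineData.Hom G₁ G₂) (he : Function.Injective e.fp) :
    ∃ θ : LineData.Hom L₁ L₂, θ.fp ≠ 0 := by
  let g : V →ₐ[k] F := IsScalarTower.toAlgHom k V F
  obtain ⟨vp, hvp, hP⟩ := exists_scaled φ₂.fp hp₂ (e.fp.comp φ₁.fp)
  obtain ⟨vm, hvm, hM⟩ := exists_scaled φ₂.fm hm₂ (e.fm.comp φ₁.fm)
  let v := vp * vm
  let cp := M.mapP g (algebraMap V (M.Ap V) v)
  let cm := M.mapM g (algebraMap V (M.Am V) v)
  let cn := M.mapPM g (algebraMap V (M.Apm V) v)
  have hcp : M.ipA F cp = cn := by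
    simp [cp, cn, g, Model.ipA, Model.mapP, Model.mapPM, Algebra.TensorProduct.algebraMap_apply]
  have hcm : M.imA F cm = cn := by
    simp [cm, cn, g, Model.imA, Model.mapM, Model.mapPM, Algebra.TensorProduct.algebraMap_apply]
  obtain ⟨θp, hθp⟩ := exists_linearMap_of_injective φ₂.fp (injective_generic φ₂.fp hp₂)
    (cp • e.fp.comp φ₁.fp) fun z => by
      obtain ⟨w, hw⟩ := hP vm z
      refine ⟨w, hw.trans ?_⟩
      rw [LinearMap.smul_apply, mul_comm vm vp]
      rfl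
  obtain ⟨θm, hθm⟩ := exists_linearMap_of_injective φ₂.fm (injective_generic φ₂.fm hm₂)
    (cm • e.fm.comp φ₁.fm) fun z => by
      obtain ⟨w, hw⟩ := hM vp z
      refine ⟨w, hw.trans ?_⟩
      rw [LinearMap.smul_apply]
      rfl
  have hn₂ := injective_generic φ₂.fn (span_range_fn φ₂ hp₂)
  obtain ⟨θn, hθn⟩ := exists_linearMap_of_injective φ₂.fn hn₂
    (cn • e.fn.comp φ₁.fn) fun n => by
      obtain ⟨i, m, hm⟩ := L₁.ρp_surj n
      refine ⟨(↑(M.xU V ^ i)⁻¹ : M.Apm V) • L₂.ρp (θp m), ?_⟩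
      rw [φ₂.fn.map_smulₛₗ, φ₂.comm_p, hθp, LinearMap.smul_apply, LinearMap.comp_apply,
        G₂.ρp.map_smulₛₗ, ← e.comm_p, ← φ₁.comm_p, ← hm, φ₁.fn.map_smulₛₗ, map_smul]
      change M.mapPM g (↑(M.xU V ^ i)⁻¹ : M.Apm V) •
        M.ipA F cp • M.mapPM g ((M.xU V : M.Apm V) ^ i) • e.fn (φ₁.fn n) = _
      rw [hcp, smul_comm cn, smul_smul, ← map_mul (M.mapPM g), ← Units.val_pow_eq_pow_val,
        Units.inv_mul, map_one, one_smul]
      rfl
  refine ⟨⟨θp, θm, θn, fun m => hn₂ ?_, fun m => hn₂ ?_⟩, fun h0 => ?_⟩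
  · calc φ₂.fn (θn (L₁.ρp m)) = cn • e.fn (φ₁.fn (L₁.ρp m)) := hθn _
      _ = M.ipA F cp • G₂.ρp (e.fp (φ₁.fp m)) := by rw [φ₁.comm_p, e.comm_p, hcp]
      _ = G₂.ρp (cp • e.fp (φ₁.fp m)) := (G₂.ρp.map_smulₛₗ _ _).symm
      _ = G₂.ρp (φ₂.fp (θp m)) := congrArg _ (hθp m).symm
      _ = φ₂.fn (L₂.ρp (θp m)) := (φ₂.comm_p _).symm
  · calc φ₂.fn (θn (L₁.ρm m)) = cn • e.fn (φ₁.fn (L₁.ρm m)) := hθn _
      _ = M.imA F cm • G₂.ρm (e.fm (φ₁.fm m)) := by rw [φ₁.comm_m, e.comm_m, hcm]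
      _ = G₂.ρm (cm • e.fm (φ₁.fm m)) := (G₂.ρm.map_smulₛₗ _ _).symm
      _ = G₂.ρm (φ₂.fm (θm m)) := congrArg _ (hθm m).symm
      _ = φ₂.fn (L₂.ρm (θm m)) := (φ₂.comm_m _).symm
  · have hz : ∀ z, φ₁.fp z = 0 := fun z => by
      have h1 := hθp z
      rw [show θp z = 0 from congrArg (fun f => f z) h0, map_zero, LinearMap.smul_apply,
        LinearMap.comp_apply] at h1
      have h2 : e.fp (φ₁.fp z) = 0 :=
        ((isUnit_generic (F := F) M.Rp (mul_ne_zero hvp hvm)).smul_eq_zero).mp h1.symm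
      exact he (h2.trans (map_zero _).symm)
    have htop : (⊤ : Submodule (M.Ap F) G₁.Mp) = ⊥ := by
      rw [← hp₁, Submodule.span_eq_bot]
      rintro _ ⟨z, rfl⟩
      exact hz z
    haveI hnt : Nontrivial M.Rp := M.ip.toRingHom.domain_nontrivial
    haveI : Subsingleton G₁.Mp := (Submodule.subsingleton_iff (M.Ap F)).mp
      (subsingleton_of_bot_eq_top htop.symm)
    haveI : Nontrivial (M.Ap F) := Function.Injective.nontrivial
      (f := Algebra.TensorProduct.includeRight (R := k) (A := F) (B := M.Rp))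
      (Algebra.TensorProduct.includeRight_injective (algebraMap k F).injective)
    exact zero_ne_one (FaithfulSMul.eq_of_smul_eq_smul (M := M.Ap F) (α := G₁.Mp)
      fun _ => Subsingleton.elim _ _)

theorem projective_restrict {R S : Type u} [CommRing R] [CommRing S] [Algebra R S]
    [Module.Free R S] (P : Type u) [AddCommGroup P] [Module S P] [Module R P]
    [IsScalarTower R S P] [Module.Projective S P] : Module.Projective R P := by
  obtain ⟨s, hs⟩ := Module.projective_def'.mp ‹Module.Projective S P›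
  exact Module.Projective.of_split (s.restrictScalars R)
    ((Finsupp.linearCombination S id).restrictScalars R)
    (LinearMap.ext fun z => congrArg (fun f => f z) hs)

theorem exists_primitive_hom {V F : Type u} [CommRing V] [IsDomain V] [ValuationRing V]
    [Algebra k V] [Field F] [Algebra k F] [Algebra V F] [IsScalarTower k V F]
    [IsFractionRing V F] {L₁ L₂ : LineData M V} {G₂ : LineData M F}
    (φ₂ : LineData.BCHom (IsScalarTower.toAlgHom k V F) L₂ G₂)
    (hp₂ : Submodule.span (M.Ap F) (Set.range φ₂.fp) = ⊤)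
    (hm₂ : Submodule.span (M.Am F) (Set.range φ₂.fm) = ⊤)
    (θ : LineData.Hom L₁ L₂) (hθ : θ.fp ≠ 0) :
    ∃ θ' : LineData.Hom L₁ L₂,
      (∃ z, θ'.fp z ∉ IsLocalRing.maximalIdeal V • (⊤ : Submodule V L₂.Mp)) ∨
      ∃ z, θ'.fm z ∉ IsLocalRing.maximalIdeal V • (⊤ : Submodule V L₂.Mm) := by
  classical
  haveI : Module.Projective V L₂.Mp := projective_restrict (S := M.Ap V) L₂.Mp
  haveI : Module.Projective V L₂.Mm := projective_restrict (S := M.Am V) L₂.Mm
  obtain ⟨sp, hsp⟩ := Module.Finite.fg_top (R := M.Ap V) (M := L₁.Mp)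
  obtain ⟨sm, hsm⟩ := Module.Finite.fg_top (R := M.Am V) (M := L₁.Mm)
  let T : Finset (L₂.Mp × L₂.Mm) :=
    sp.image (fun z => (θ.fp z, 0)) ∪ sm.image fun z => (0, θ.fm z)
  obtain ⟨v, hv, hdiv, y, hy, hprim⟩ := exists_primitive (V := V) T (by
    by_contra! h
    refine hθ (LinearMap.ext_on hsp fun z hz => ?_)
    exact congrArg Prod.fst (h _ (Finset.mem_union_left _ (Finset.mem_image_of_mem _ hz))))
  have hdp : ∀ z, ∃ w, v • w = θ.fp z := by
    intro z
    have hz : z ∈ Submodule.span (M.Ap V) (sp : Set L₁.Mp) := by rw [hsp]; trivial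
    refine Submodule.span_induction (p := fun z _ => ∃ w, v • w = θ.fp z) ?_
      ⟨0, by rw [map_zero, smul_zero]⟩ ?_ ?_ hz
    · intro z hz
      obtain ⟨y', hy'⟩ := hdiv _ (Finset.mem_union_left _ (Finset.mem_image_of_mem _ hz))
      exact ⟨y'.1, (congrArg Prod.fst hy').symm⟩
    · rintro a b _ _ ⟨w, hw⟩ ⟨w', hw'⟩
      exact ⟨w + w', by rw [smul_add, hw, hw', map_add]⟩
    · rintro c a _ ⟨w, hw⟩
      exact ⟨c • w, by rw [map_smul, ← hw, smul_comm]⟩
  have hdm : ∀ z, ∃ w, v • w = θ.fm z := by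
    intro z
    have hz : z ∈ Submodule.span (M.Am V) (sm : Set L₁.Mm) := by rw [hsm]; trivial
    refine Submodule.span_induction (p := fun z _ => ∃ w, v • w = θ.fm z) ?_
      ⟨0, by rw [map_zero, smul_zero]⟩ ?_ ?_ hz
    · intro z hz
      obtain ⟨y', hy'⟩ := hdiv _ (Finset.mem_union_right _ (Finset.mem_image_of_mem _ hz))
      exact ⟨y'.2, (congrArg Prod.snd hy').symm⟩
    · rintro a b _ _ ⟨w, hw⟩ ⟨w', hw'⟩
      exact ⟨w + w', by rw [smul_add, hw, hw', map_add]⟩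
    · rintro c a _ ⟨w, hw⟩
      exact ⟨c • w, by rw [map_smul, ← hw, smul_comm]⟩
  have hρp : ∀ w, L₂.ρp (v • w) = v • L₂.ρp w := fun w => by
    rw [← IsScalarTower.algebraMap_smul (M.Ap V) v w, L₂.ρp.map_smulₛₗ]
    change M.ipA V (algebraMap V (M.Ap V) v) • _ = _
    rw [AlgHom.commutes, IsScalarTower.algebraMap_smul]
  have hρm : ∀ w, L₂.ρm (v • w) = v • L₂.ρm w := fun w => by
    rw [← IsScalarTower.algebraMap_smul (M.Am V) v w, L₂.ρm.map_smulₛₗ]
    change M.imA V (algebraMap V (M.Am V) v) • _ = _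
    rw [AlgHom.commutes, IsScalarTower.algebraMap_smul]
  have hnv := injective_smul_generic φ₂.fn (injective_generic φ₂.fn (span_range_fn φ₂ hp₂)) hv
  have hpv := injective_smul_generic φ₂.fp (injective_generic φ₂.fp hp₂) hv
  have hmv := injective_smul_generic φ₂.fm (injective_generic φ₂.fm hm₂) hv
  let Sp : L₂.Mp →ₗ[M.Ap V] L₂.Mp := algebraMap V (M.Ap V) v • LinearMap.id
  let Sm : L₂.Mm →ₗ[M.Am V] L₂.Mm := algebraMap V (M.Am V) v • LinearMap.id
  let Sn : L₂.N →ₗ[M.Apm V] L₂.N := algebraMap V (M.Apm V) v • LinearMap.id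
  have hSp : ∀ w, Sp w = v • w := fun w => by simp [Sp]
  have hSm : ∀ w, Sm w = v • w := fun w => by simp [Sm]
  have hSn : ∀ w, Sn w = v • w := fun w => by simp [Sn]
  obtain ⟨tp, htp⟩ := exists_linearMap_of_injective Sp
    (fun a b h => hpv (by simpa [hSp] using h)) θ.fp fun z => by
      obtain ⟨w, hw⟩ := hdp z
      exact ⟨w, by rw [hSp, hw]⟩
  obtain ⟨tm, htm⟩ := exists_linearMap_of_injective Sm
    (fun a b h => hmv (by simpa [hSm] using h)) θ.fm fun z => by
      obtain ⟨w, hw⟩ := hdm z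
      exact ⟨w, by rw [hSm, hw]⟩
  obtain ⟨tn, htn⟩ := exists_linearMap_of_injective Sn
    (fun a b h => hnv (by simpa [hSn] using h)) θ.fn fun n => by
      obtain ⟨i, m, hm⟩ := L₁.ρp_surj n
      refine ⟨(↑(M.xU V ^ i)⁻¹ : M.Apm V) • L₂.ρp (tp m), ?_⟩
      rw [hSn, smul_comm, ← hρp, ← hSp, htp, ← θ.comm_p, ← hm, map_smul, smul_smul,
        ← Units.val_pow_eq_pow_val, Units.inv_mul, one_smul]
  refine ⟨⟨tp, tm, tn, fun m => hnv ?_, fun m => hnv ?_⟩, ?_⟩
  · show v • tn (L₁.ρp m) = v • L₂.ρp (tp m)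
    rw [← hSn, htn, ← hρp, ← hSp, htp, θ.comm_p]
  · show v • tn (L₁.ρm m) = v • L₂.ρm (tm m)
    rw [← hSn, htn, ← hρm, ← hSm, htm, θ.comm_m]
  rcases Finset.mem_union.mp hy with hy | hy <;> obtain ⟨z, -, rfl⟩ := Finset.mem_image.mp hy
  · refine Or.inl ⟨z, fun hmem => hprim (tp z, 0) ?_ ?_⟩
    · rw [Prod.smul_mk, smul_zero, ← hSp, htp]
    · exact (Submodule.map_smul'' _ _ (LinearMap.inl V L₂.Mp L₂.Mm)).le.trans
        (Submodule.smul_mono le_rfl le_top) (Submodule.mem_map_of_mem hmem)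
  · refine Or.inr ⟨z, fun hmem => hprim (0, tm z) ?_ ?_⟩
    · rw [Prod.smul_mk, smul_zero, ← hSm, htm]
    · exact (Submodule.map_smul'' _ _ (LinearMap.inr V L₂.Mp L₂.Mm)).le.trans
        (Submodule.smul_mono le_rfl le_top) (Submodule.mem_map_of_mem hmem)

theorem equivalent_of_generic_fibre {V : Type u} [CommRing V] [IsDomain V] [ValuationRing V]
    [Algebra k V] {F : Type u} [Field F] [Algebra k F] [Algebra V F] [IsScalarTower k V F]
    [IsFractionRing V F] {L₁ L₂ : LineData M V} (h₁ : L₁.FibreDeg 0) (h₂ : L₂.FibreDeg 0)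
    {G₁ G₂ : LineData M F} (b₁ : LineData.IsBC (IsScalarTower.toAlgHom k V F) L₁ G₁)
    (b₂ : LineData.IsBC (IsScalarTower.toAlgHom k V F) L₂ G₂) (e : LineData.Equivalent G₁ G₂) :
    LineData.Equivalent L₁ L₂ := by
  obtain ⟨φ₁, hp₁, hm₁⟩ := b₁
  obtain ⟨φ₂, hp₂, hm₂⟩ := b₂
  obtain ⟨ef, hef, -, -⟩ := e
  obtain ⟨θ₀, hθ₀⟩ := exists_scaled_hom φ₁ hp₁ φ₂ hp₂ hm₂ ef hef.1
  obtain ⟨θ, hθ⟩ := exists_primitive_hom φ₂ hp₂ hm₂ θ₀ hθ₀
  have hfib : ∀ (K : Type u) [Field K] [Algebra k K] [IsAlgClosed K] (f : V →ₐ[k] K),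
      ∃ (K₁ K₂ : LineData M K) (ψ₁ : LineData.BCHom f L₁ K₁) (ψ₂ : LineData.BCHom f L₂ K₂)
        (φ : LineData.Hom K₁ K₂),
        Submodule.span (M.Ap K) (Set.range ψ₁.fp) = ⊤ ∧
        Submodule.span (M.Am K) (Set.range ψ₁.fm) = ⊤ ∧
        Submodule.span (M.Ap K) (Set.range ψ₂.fp) = ⊤ ∧
        Submodule.span (M.Am K) (Set.range ψ₂.fm) = ⊤ ∧
        (∀ z, φ.fp (ψ₁.fp z) = ψ₂.fp (θ.fp z)) ∧ (∀ z, φ.fm (ψ₁.fm z) = ψ₂.fm (θ.fm z)) ∧
        Function.Surjective φ.fp ∧ Function.Surjective φ.fm := by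
    intro K _ _ _ f
    obtain ⟨K₁, c₁⟩ := exists_bc f L₁
    obtain ⟨K₂, c₂⟩ := exists_bc f L₂
    have e₁ := h₁ K f K₁ c₁
    have e₂ := h₂ K f K₂ c₂
    obtain ⟨ψ₁, a₁, a₂⟩ := c₁
    obtain ⟨ψ₂, a₃, a₄⟩ := c₂
    obtain ⟨φ, hφp, hφm⟩ := exists_fibre_hom θ ψ₁ ψ₂ a₁ a₂
    have hne : φ.fp ≠ 0 ∨ φ.fm ≠ 0 := by
      rcases hθ with ⟨z, hz⟩ | ⟨z, hz⟩
      · refine Or.inl fun h => hz (mem_maximalIdeal_smul_of_fibre f ψ₂.fp a₃ ?_)
        exact (hφp z).symm.trans (by rw [h]; rfl)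
      · refine Or.inr fun h => hz (mem_maximalIdeal_smul_of_fibre f ψ₂.fm a₄ ?_)
        exact (hφm z).symm.trans (by rw [h]; rfl)
    obtain ⟨b1, b2, -⟩ := hom_bijective_of_chi_eq φ hne (e₁.trans e₂.symm)
    exact ⟨K₁, K₂, ψ₁, ψ₂, φ, a₁, a₂, a₃, a₄, hφp, hφm, b1.2, b2.2⟩
  have hps : Function.Surjective θ.fp := surjective_of_fibres θ.fp fun K _ _ _ f T _ _ l hl => by
    obtain ⟨K₁, K₂, ψ₁, ψ₂, φ, a₁, a₂, a₃, a₄, hφp, hφm, hsp, hsm⟩ := hfib K f
    obtain ⟨h', hh'⟩ := exists_semilinear_extend ψ₂.fp a₃ l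
    have h0 : h'.comp φ.fp = 0 := linearMap_ext_of_span a₁ fun z =>
      ((congrArg h' (hφp z)).trans (hh' _)).trans ((hl z).trans (LinearMap.zero_apply _).symm)
    refine LinearMap.ext fun z => ?_
    obtain ⟨q, hq⟩ := hsp (ψ₂.fp z)
    exact ((hh' z).symm.trans (congrArg h' hq.symm)).trans (congrArg (fun g => g q) h0)
  have hms : Function.Surjective θ.fm := surjective_of_fibres θ.fm fun K _ _ _ f T _ _ l hl => by
    obtain ⟨K₁, K₂, ψ₁, ψ₂, φ, a₁, a₂, a₃, a₄, hφp, hφm, hsp, hsm⟩ := hfib K f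
    obtain ⟨h', hh'⟩ := exists_semilinear_extend ψ₂.fm a₄ l
    have h0 : h'.comp φ.fm = 0 := linearMap_ext_of_span a₂ fun z =>
      ((congrArg h' (hφm z)).trans (hh' _)).trans ((hl z).trans (LinearMap.zero_apply _).symm)
    refine LinearMap.ext fun z => ?_
    obtain ⟨q, hq⟩ := hsm (ψ₂.fm z)
    exact ((hh' z).symm.trans (congrArg h' hq.symm)).trans (congrArg (fun g => g q) h0)
  refine ⟨θ, Module.Invertible.bijective_of_surjective hps,
    Module.Invertible.bijective_of_surjective hms,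
    Module.Invertible.bijective_of_surjective fun n => ?_⟩
  obtain ⟨i, m, hm⟩ := L₂.ρp_surj n
  obtain ⟨m', rfl⟩ := hps m
  refine ⟨(↑(M.xU V ^ i)⁻¹ : M.Apm V) • L₁.ρp m', ?_⟩
  rw [map_smul, θ.comm_p, ← hm, smul_smul, ← Units.val_pow_eq_pow_val, Units.inv_mul, one_smul]

end

end FLTAgent.Jac
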