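import Fermat.Agent.Jac.Defs

/-!
# S25: divisors with a basis of the quotient and their parameter scheme
-/

set_option autoImplicit false
set_option linter.unusedSectionVars false
set_option linter.style.haveILetI false

universe u

open TensorProduct

namespace FLTAgent.Jac

noncomputable section

variable {k : Type u} [Field k] {M : Model k} {r : ℕ} {b : Fin r → M.Rp}
  {A : Type u} [CommRing A] [Algebra k A] {B : Type u} [CommRing B] [Algebra k B]

/-- The data of a divisor with basis `b`: the coordinates of the elements of `Rp`. -/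
structure BasisProj (b : Fin r → M.Rp) (A : Type u) [CommRing A] [Algebra k A] : Type u where
  π : M.Rp →ₗ[k] (Fin r → A)
  π_b : ∀ i, π (b i) = Pi.single i 1
  π_mul : ∀ s t, π (s * t) = ∑ i, π t i • π (s * b i)

namespace BasisProj

variable (ρ : BasisProj b A)

/-- The coordinates on `Ap A`. -/
def coord : M.Ap A →ₗ[A] (Fin r → A) := LinearMap.liftBaseChange A ρ.π

@[simp] theorem coord_tmul (a : A) (s : M.Rp) : ρ.coord (a ⊗ₜ s) = a • ρ.π s := by
  simp [coord]

theorem coord_sum (a : Fin r → A) : ρ.coord (∑ i, a i ⊗ₜ[k] b i) = a := by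
  rw [map_sum]
  ext j
  simp [ρ.π_b, Finset.sum_apply, Pi.single_apply]

/-- The ideal of the divisor. -/
def ideal : Ideal (M.Ap A) :=
  Ideal.span (Set.range fun s : M.Rp => (1 : A) ⊗ₜ[k] s - ∑ i, ρ.π s i ⊗ₜ[k] b i)

theorem coord_mul (a : A) (t : M.Rp) (z : M.Ap A) :
    ρ.coord (a ⊗ₜ t * z) = a • ∑ i, ρ.coord z i • ρ.π (t * b i) := by
  induction z using TensorProduct.induction_on with
  | zero => simp
  | tmul a' s =>
    rw [Algebra.TensorProduct.tmul_mul_tmul, coord_tmul, coord_tmul, ρ.π_mul, mul_smul]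
    congr 1
    rw [Finset.smul_sum]
    exact Finset.sum_congr rfl fun i _ => by rw [Pi.smul_apply, smul_eq_mul, mul_smul]
  | add z z' h h' =>
    rw [mul_add, map_add, h, h', map_add, ← smul_add, ← Finset.sum_add_distrib]
    simp [add_smul]

theorem coord_eq_zero_of_mem {y : M.Ap A} (hy : y ∈ ρ.ideal) : ρ.coord y = 0 := by
  refine Submodule.span_induction (p := fun y _ => ρ.coord y = 0) ?_ (map_zero _) ?_ ?_ hy
  · rintro _ ⟨s, rfl⟩
    rw [map_sub, coord_tmul, one_smul, coord_sum, sub_self]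
  · intro y y' _ _ h h'
    rw [map_add, h, h', add_zero]
  · intro c y _ h
    rw [smul_eq_mul]
    induction c using TensorProduct.induction_on with
    | zero => simp
    | tmul a t => rw [coord_mul, h]; simp
    | add c c' hc hc' => rw [add_mul, map_add, hc, hc', add_zero]

theorem sub_coord_mem (y : M.Ap A) : y - ∑ i, ρ.coord y i ⊗ₜ[k] b i ∈ ρ.ideal := by
  induction y using TensorProduct.induction_on with
  | zero => simp
  | tmul a s =>
    have : (a ⊗ₜ[k] s : M.Ap A) - ∑ i, ρ.coord (a ⊗ₜ s) i ⊗ₜ[k] b i =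
        (a ⊗ₜ[k] (1 : M.Rp)) * ((1 : A) ⊗ₜ[k] s - ∑ i, ρ.π s i ⊗ₜ[k] b i) := by
      simp [mul_sub, Finset.mul_sum, Algebra.TensorProduct.tmul_mul_tmul]
    rw [this]
    exact Ideal.mul_mem_left _ _ (Ideal.subset_span ⟨s, rfl⟩)
  | add y y' h h' =>
    convert Ideal.add_mem _ h h' using 1
    simp [add_tmul, Finset.sum_add_distrib]
    abel

theorem mem_ideal_iff {y : M.Ap A} : y ∈ ρ.ideal ↔ ρ.coord y = 0 :=
  ⟨ρ.coord_eq_zero_of_mem, fun h => by simpa [h] using ρ.sub_coord_mem y⟩

theorem hasBasis : HasBasis ρ.ideal b := by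
  refine ⟨fun a a' h => ?_, fun q => ?_⟩
  · have := ρ.coord_eq_zero_of_mem (Ideal.Quotient.eq.mp h)
    rwa [map_sub, coord_sum, coord_sum, sub_eq_zero] at this
  · obtain ⟨y, rfl⟩ := Ideal.Quotient.mk_surjective q
    exact ⟨ρ.coord y, (Ideal.Quotient.eq.mpr (ρ.sub_coord_mem y)).symm⟩

theorem π_eq_of_ideal_eq {ρ ρ' : BasisProj b A} (h : ρ.ideal = ρ'.ideal) : ρ.π = ρ'.π := by
  refine LinearMap.ext fun s => ?_
  have := ρ.coord_eq_zero_of_mem (h ▸ ρ'.sub_coord_mem ((1 : A) ⊗ₜ[k] s))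
  rw [map_sub, coord_sum, coord_tmul, one_smul, sub_eq_zero] at this
  exact this.trans (by rw [coord_tmul, one_smul])

/-- Push forward along an algebra map. -/
def map (f : A →ₐ[k] B) : BasisProj b B where
  π := (f.toLinearMap.compLeft (Fin r)).comp ρ.π
  π_b i := by
    ext j
    simp [ρ.π_b, Pi.single_apply, apply_ite f]
  π_mul s t := by
    ext j
    simp [ρ.π_mul s t, Finset.sum_apply]

theorem map_ideal (f : A →ₐ[k] B) : ρ.ideal.map (M.mapP f) = (ρ.map f).ideal := by
  rw [ideal, ideal, Ideal.map_span, ← Set.range_comp]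
  congr 2
  funext s
  simp [map, Model.mapP]

end BasisProj

theorem exists_basisProj {I : Ideal (M.Ap A)} (h : HasBasis I b) :
    ∃ ρ : BasisProj b A, ρ.ideal = I := by
  let Φ : (Fin r → A) →ₗ[A] M.Ap A ⧸ I :=
    { toFun := fun a => Ideal.Quotient.mk I (∑ i, a i ⊗ₜ[k] b i)
      map_add' := fun a a' => by simp [add_tmul, Finset.sum_add_distrib, map_add]
      map_smul' := fun c a => by
        simp only [RingHom.id_apply, Pi.smul_apply, smul_eq_mul, Algebra.smul_def (R := A)
          (A := M.Ap A ⧸ I), Ideal.Quotient.algebraMap_eq, IsScalarTower.algebraMap_apply A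
          (M.Ap A) (M.Ap A ⧸ I), ← map_mul, Finset.mul_sum]
        simp [Algebra.TensorProduct.algebraMap_apply, Algebra.TensorProduct.tmul_mul_tmul] }
  let e := LinearEquiv.ofBijective Φ h
  let c : M.Ap A →ₗ[A] (Fin r → A) := e.symm.toLinearMap ∘ₗ (Ideal.Quotient.mkₐ A I).toLinearMap
  have hc : ∀ y, Ideal.Quotient.mk I (∑ i, c y i ⊗ₜ[k] b i) = Ideal.Quotient.mk I y := fun y =>
    e.apply_symm_apply _
  have hc' : ∀ (a : Fin r → A) (y : M.Ap A),
      Ideal.Quotient.mk I (∑ i, a i ⊗ₜ[k] b i) = Ideal.Quotient.mk I y → c y = a := fun a y h' =>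
    e.injective ((hc y).trans h'.symm)
  let π : M.Rp →ₗ[k] (Fin r → A) :=
    (c.restrictScalars k) ∘ₗ (TensorProduct.mk k A M.Rp 1)
  have hπ : ∀ s, Ideal.Quotient.mk I (∑ i, π s i ⊗ₜ[k] b i) = Ideal.Quotient.mk I (1 ⊗ₜ s) :=
    fun s => hc _
  let ρ : BasisProj b A :=
    { π := π
      π_b := fun i => hc' _ _ (by
        congr 1
        simp [Pi.single_apply, ite_tmul])
      π_mul := fun s t => hc' _ _ (by
        have e1 : Ideal.Quotient.mk I (((1 : A) ⊗ₜ[k] s) * ((1 : A) ⊗ₜ[k] t)) =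
            Ideal.Quotient.mk I (((1 : A) ⊗ₜ[k] (1 * (s * t)))) := by simp
        rw [show ((TensorProduct.mk k A M.Rp) 1) (s * t) = ((1 : A) ⊗ₜ[k] s) * ((1 : A) ⊗ₜ[k] t)
            by simp, map_mul, ← hπ t, ← map_mul, Finset.mul_sum]
        have e2 : ∀ i : Fin r, Ideal.Quotient.mk I (((1 : A) ⊗ₜ[k] s) * (π t i ⊗ₜ[k] b i)) =
            Ideal.Quotient.mk I (∑ j, (π t i * π (s * b i) j) ⊗ₜ[k] b j) := fun i => by
          have : ∑ j, (π t i * π (s * b i) j) ⊗ₜ[k] b j =
              (π t i ⊗ₜ[k] (1 : M.Rp)) * ∑ j, π (s * b i) j ⊗ₜ[k] b j := by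
            simp [Finset.mul_sum, Algebra.TensorProduct.tmul_mul_tmul]
          rw [this, map_mul (Ideal.Quotient.mk I) _ (∑ j, π (s * b i) j ⊗ₜ[k] b j), hπ, ← map_mul]
          simp [Algebra.TensorProduct.tmul_mul_tmul]
        rw [map_sum, map_sum (Ideal.Quotient.mk I), Finset.sum_congr rfl fun i _ => e2 i,
          ← map_sum, ← map_sum, Finset.sum_comm]
        simp [Finset.sum_apply, sum_tmul]) }
  refine ⟨ρ, le_antisymm ?_ fun y hy => ?_⟩
  · refine Ideal.span_le.mpr ?_
    rintro _ ⟨s, rfl⟩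
    exact Ideal.Quotient.eq.mp (hπ s).symm
  · have hle : ρ.ideal ≤ I := by
      refine Ideal.span_le.mpr ?_
      rintro _ ⟨s, rfl⟩
      exact Ideal.Quotient.eq.mp (hπ s).symm
    have h1 := hle (ρ.sub_coord_mem y)
    have h2 : ∑ i, ρ.coord y i ⊗ₜ[k] b i ∈ I := by
      convert Ideal.sub_mem _ hy h1 using 1
      abel
    have h3 : ρ.coord y = 0 := h.injective (by
      change Ideal.Quotient.mk I _ = Ideal.Quotient.mk I _
      rw [Ideal.Quotient.eq_zero_iff_mem.mpr h2]
      simp)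
    exact ρ.mem_ideal_iff.mpr h3

theorem hasBasis_map {I : Ideal (M.Ap A)} (h : HasBasis I b) (f : A →ₐ[k] B) :
    HasBasis (I.map (M.mapP f)) b := by
  obtain ⟨ρ, rfl⟩ := exists_basisProj h
  rw [ρ.map_ideal]
  exact (ρ.map f).hasBasis

theorem isDivDeg_of_hasBasis {I : Ideal (M.Ap A)} (h : HasBasis I b) : IsDivDeg I r := by
  obtain ⟨ρ, rfl⟩ := exists_basisProj h
  let Φ : (Fin r → A) →ₗ[A] M.Ap A ⧸ ρ.ideal :=
    (Ideal.Quotient.mkₐ A ρ.ideal).toLinearMap.comp (Fintype.linearCombination A fun i =>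
      (1 : A) ⊗ₜ[k] b i)
  have hΦ : Function.Bijective Φ := by
    have hfun : ⇑Φ = fun a : Fin r → A => Ideal.Quotient.mk ρ.ideal (∑ i, a i ⊗ₜ[k] b i) := by
      funext a
      simp [Φ, Fintype.linearCombination_apply, smul_tmul']
    rw [hfun]
    exact h
  let e := LinearEquiv.ofBijective Φ hΦ
  refine ⟨Module.Finite.equiv e, Module.Projective.of_equiv e, fun p => ?_⟩
  haveI : Nontrivial A := RingHom.domain_nontrivial (algebraMap A (A ⧸ p.asIdeal))
  rw [← Module.rankAtStalk_eq_of_equiv e, Module.rankAtStalk_eq_finrank_of_free]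
  simp

/-- The variable attached to the `i`-th coordinate. -/
def hilbVar (M : Model k) (r : ℕ) (i : Fin r) :
    M.Rp →ₗ[k] SymmetricAlgebra k (Fin r → M.Rp) :=
  (SymmetricAlgebra.ι k (Fin r → M.Rp)).comp (LinearMap.single k (fun _ => M.Rp) i)

def hilbRel (b : Fin r → M.Rp) : Ideal (SymmetricAlgebra k (Fin r → M.Rp)) :=
  Ideal.span
    ((Set.range fun ij : Fin r × Fin r =>
        hilbVar M r ij.2 (b ij.1) - if ij.1 = ij.2 then 1 else 0) ∪
      Set.range fun q : Fin r × M.Rp × M.Rp =>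
        hilbVar M r q.1 (q.2.1 * q.2.2) -
          ∑ i, hilbVar M r i q.2.2 * hilbVar M r q.1 (q.2.1 * b i))

/-- The parameter ring of divisors with basis `b`. -/
abbrev HilbRing (b : Fin r → M.Rp) : Type u :=
  SymmetricAlgebra k (Fin r → M.Rp) ⧸ hilbRel b

def hilbUniv (b : Fin r → M.Rp) : BasisProj b (HilbRing b) where
  π := LinearMap.pi fun j => (Ideal.Quotient.mkₐ k (hilbRel b)).toLinearMap.comp (hilbVar M r j)
  π_b i := by
    ext j
    have : hilbVar M r j (b i) - (if i = j then 1 else 0) ∈ hilbRel b :=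
      Ideal.subset_span (Or.inl ⟨(i, j), rfl⟩)
    simp only [LinearMap.pi_apply, LinearMap.comp_apply, AlgHom.toLinearMap_apply,
      Ideal.Quotient.mkₐ_eq_mk, Pi.single_apply]
    rw [Ideal.Quotient.eq.mpr this]
    simp [apply_ite (Ideal.Quotient.mk (hilbRel b)), eq_comm]
  π_mul s t := by
    ext j
    have : hilbVar M r j (s * t) - ∑ i, hilbVar M r i t * hilbVar M r j (s * b i) ∈ hilbRel b :=
      Ideal.subset_span (Or.inr ⟨(j, s, t), rfl⟩)
    simp only [LinearMap.pi_apply, LinearMap.comp_apply, AlgHom.toLinearMap_apply,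
      Ideal.Quotient.mkₐ_eq_mk, Finset.sum_apply, Pi.smul_apply, smul_eq_mul]
    rw [Ideal.Quotient.eq.mpr this, map_sum]
    simp only [map_mul]

theorem finiteType_hilbRing (b : Fin r → M.Rp) : Algebra.FiniteType k (HilbRing b) := by
  classical
  obtain ⟨bb, hbb⟩ := M.basis_p
  let G : Finset M.Rp := insert M.x (Finset.univ.image bb)
  have hG : Algebra.adjoin k (G : Set M.Rp) = ⊤ := by
    refine eq_top_iff.mpr fun s _ => ?_
    obtain ⟨c, rfl⟩ := hbb.2 s
    refine Subalgebra.sum_mem _ fun i _ => Subalgebra.mul_mem _ ?_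
      (Algebra.subset_adjoin (by simp [G]))
    exact Algebra.adjoin_mono (Set.singleton_subset_iff.mpr (by simp [G]))
      (Polynomial.aeval_mem_adjoin_singleton k M.x)
  let ρ := hilbUniv b
  let W : Finset (HilbRing b) :=
    (Finset.univ.image fun j => ρ.π 1 j) ∪
      ((G ×ˢ (Finset.univ ×ˢ Finset.univ)).image fun q : M.Rp × Fin r × Fin r =>
        ρ.π (q.1 * b q.2.1) q.2.2)
  let S := Algebra.adjoin k (W : Set (HilbRing b))
  refine ⟨⟨W, eq_top_iff.mpr fun y _ => ?_⟩⟩
  have key : ∀ s : M.Rp, ∀ t, (∀ j, ρ.π t j ∈ S) → ∀ j, ρ.π (s * t) j ∈ S := by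
    intro s
    have hs : s ∈ Algebra.adjoin k (G : Set M.Rp) := by rw [hG]; trivial
    induction hs using Algebra.adjoin_induction with
    | mem g hg =>
      intro t ht j
      rw [ρ.π_mul, Finset.sum_apply]
      refine S.sum_mem fun i _ => S.mul_mem (ht i) (Algebra.subset_adjoin ?_)
      exact Finset.mem_union_right _ (Finset.mem_image.mpr ⟨(g, i, j),
        Finset.mem_product.mpr ⟨hg, by simp⟩, rfl⟩)
    | algebraMap c =>
      intro t ht j
      rw [← Algebra.smul_def, map_smul, Pi.smul_apply]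
      exact S.smul_mem (ht j) c
    | add s s' _ _ h h' =>
      intro t ht j
      rw [add_mul, map_add, Pi.add_apply]
      exact S.add_mem (h t ht j) (h' t ht j)
    | mul s s' _ _ h h' =>
      intro t ht j
      rw [mul_assoc]
      exact h _ (h' t ht) j
  have hall : ∀ s j, ρ.π s j ∈ S := fun s j => by
    simpa using key s 1 (fun j => Algebra.subset_adjoin
      (Finset.mem_union_left _ (Finset.mem_image.mpr ⟨j, Finset.mem_univ _, rfl⟩))) j
  obtain ⟨y, rfl⟩ := Ideal.Quotient.mk_surjective y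
  clear * - y hall
  show Ideal.Quotient.mk (hilbRel b) y ∈ S
  induction y using SymmetricAlgebra.induction with
  | algebraMap c => exact S.algebraMap_mem c
  | ι v =>
    rw [show v = ∑ i, LinearMap.single k (fun _ => M.Rp) i (v i) from
      (Finset.univ_sum_single v).symm, map_sum, map_sum]
    exact S.sum_mem fun i _ => hall (v i) i
  | mul a a' h h' => rw [map_mul]; exact S.mul_mem h h'
  | add a a' h h' => rw [map_add]; exact S.add_mem h h'

theorem exists_unique_hilbUniv {I' : Ideal (M.Ap A)} (h : HasBasis I' b) :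
    ∃! f : HilbRing b →ₐ[k] A, (hilbUniv b).ideal.map (M.mapP f) = I' := by
  obtain ⟨ρ, rfl⟩ := exists_basisProj h
  let v : (Fin r → M.Rp) →ₗ[k] A :=
    ∑ i, ((LinearMap.proj i).comp ρ.π).comp (LinearMap.proj i)
  let F : SymmetricAlgebra k (Fin r → M.Rp) →ₐ[k] A := SymmetricAlgebra.lift v
  have hF : ∀ j s, F (hilbVar M r j s) = ρ.π s j := fun j s => by
    simp [F, v, hilbVar, LinearMap.sum_apply, Pi.single_apply, apply_ite (ρ.π),
      Finset.sum_ite_eq', ite_apply]
  have hker : hilbRel b ≤ RingHom.ker F := by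
    refine Ideal.span_le.mpr ?_
    rintro _ (⟨⟨i, j⟩, rfl⟩ | ⟨⟨j, s, t⟩, rfl⟩)
    · show F _ = 0
      rw [map_sub, hF, ρ.π_b, Pi.single_apply, apply_ite F, map_one, map_zero, sub_eq_zero]
      exact if_congr eq_comm rfl rfl
    · show F _ = 0
      simp only [map_sub, map_sum, hF, sub_eq_zero]
      rw [ρ.π_mul s t, Finset.sum_apply]
      exact Finset.sum_congr rfl fun i _ => by rw [map_mul F, hF, hF, Pi.smul_apply, smul_eq_mul]
  let f : HilbRing b →ₐ[k] A := Ideal.Quotient.liftₐ _ F fun a ha => hker ha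
  refine ⟨f, ?_, fun f' hf' => ?_⟩
  · show (hilbUniv b).ideal.map (M.mapP f) = ρ.ideal
    rw [BasisProj.map_ideal, BasisProj.ideal, BasisProj.ideal]
    congr 3
    funext s
    congr 1
    refine Finset.sum_congr rfl fun i _ => ?_
    change f (Ideal.Quotient.mk (hilbRel b) (hilbVar M r i s)) ⊗ₜ[k] b i = _
    rw [show f (Ideal.Quotient.mk (hilbRel b) (hilbVar M r i s)) = F (hilbVar M r i s) from rfl, hF]
  · change (hilbUniv b).ideal.map (M.mapP f') = ρ.ideal at hf'
    rw [BasisProj.map_ideal] at hf'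
    have hπ := BasisProj.π_eq_of_ideal_eq hf'
    refine Ideal.Quotient.algHom_ext k (SymmetricAlgebra.algHom_ext (LinearMap.pi_ext fun j s => ?_))
    have := congrArg (fun g : M.Rp →ₗ[k] (Fin r → A) => g s j) hπ
    have h1 : f' (Ideal.Quotient.mk (hilbRel b) (hilbVar M r j s)) =
        f (Ideal.Quotient.mk (hilbRel b) (hilbVar M r j s)) := this.trans (hF j s).symm
    exact h1

theorem exists_hasBasis_of_field {K : Type u} [Field K] [Algebra k K] {I : Ideal (M.Ap K)}
    (h : IsDivDeg I r) : ∃ b : Fin r → M.Rp, HasBasis I b := by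
  haveI := h.finite
  let v : M.Rp → M.Ap K ⧸ I := fun s => Ideal.Quotient.mk I ((1 : K) ⊗ₜ[k] s)
  have hspan : ⊤ ≤ Submodule.span K (Set.range v) := by
    rintro q -
    obtain ⟨y, rfl⟩ := Ideal.Quotient.mk_surjective q
    induction y using TensorProduct.induction_on with
    | zero => simp
    | tmul a s =>
      have : Ideal.Quotient.mk I (a ⊗ₜ[k] s) = a • v s := by
        simp only [v, ← Ideal.Quotient.mkₐ_eq_mk K, ← map_smul, smul_tmul', smul_eq_mul, mul_one]
      rw [this]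
      exact Submodule.smul_mem _ _ (Submodule.subset_span ⟨s, rfl⟩)
    | add y y' h h' => rw [map_add]; exact Submodule.add_mem _ h h'
  obtain ⟨T, hTsub, hTspan, hTind⟩ := exists_linearIndependent K (Set.range v)
  let B₀ : Module.Basis T K (M.Ap K ⧸ I) := Module.Basis.mk hTind
    (by rw [Subtype.range_coe, hTspan]; exact hspan)
  haveI : Fintype T := FiniteDimensional.fintypeBasisIndex B₀
  have hcard : Fintype.card T = r := by
    rw [← Module.finrank_eq_card_basis B₀, ← h.rank ⟨⊥, Ideal.isPrime_bot⟩,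
      Module.rankAtStalk_eq_finrank_of_free]
    rfl
  let e : Fin r ≃ T := (Fintype.equivFinOfCardEq hcard).symm
  choose s hs using fun t : T => hTsub t.2
  refine ⟨fun i => s (e i), ?_⟩
  have hfun : (fun a : Fin r → K => Ideal.Quotient.mk I (∑ i, a i ⊗ₜ[k] s (e i))) =
      (B₀.reindex e.symm).equivFun.symm := by
    funext a
    rw [Module.Basis.equivFun_symm_apply, map_sum]
    refine Finset.sum_congr rfl fun i _ => ?_
    simp only [Module.Basis.reindex_apply, Equiv.symm_symm, B₀, Module.Basis.mk_apply]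
    rw [← hs]
    simp only [v, ← Ideal.Quotient.mkₐ_eq_mk K, ← map_smul, smul_tmul', smul_eq_mul, mul_one]
  unfold HasBasis
  rw [hfun]
  exact LinearEquiv.bijective _

end

end FLTAgent.Jac
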