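import Fermat.Agent.Jac.Hilb.Basis
import Fermat.Agent.Jac.Ops

/-!
# S25: the locus where a divisor has a prescribed basis
-/

set_option autoImplicit false
set_option linter.unusedSectionVars false
set_option linter.style.haveILetI false

universe u

open TensorProduct

namespace FLTAgent.Jac

noncomputable section

variable {k : Type u} [Field k] {M : Model k} {r : ℕ}
  {A : Type u} [CommRing A] [Algebra k A] {B : Type u} [CommRing B] [Algebra k B]

/-- The span of a divisor ideal and the proposed basis. -/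
def basisSpan (I : Ideal (M.Ap A)) (b : Fin r → M.Rp) : Submodule A (M.Ap A) :=
  I.restrictScalars A ⊔ Submodule.span A (Set.range fun i => (1 : A) ⊗ₜ[k] b i)

/-- The linear combination of the proposed basis in the quotient. -/
def basisMap (I : Ideal (M.Ap A)) (b : Fin r → M.Rp) : (Fin r → A) →ₗ[A] M.Ap A ⧸ I :=
  (Ideal.Quotient.mkₐ A I).toLinearMap.comp
    (Fintype.linearCombination A fun i => (1 : A) ⊗ₜ[k] b i)

theorem basisMap_apply (I : Ideal (M.Ap A)) (b : Fin r → M.Rp) (a : Fin r → A) :
    basisMap I b a = Ideal.Quotient.mk I (∑ i, a i ⊗ₜ[k] b i) := by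
  simp [basisMap, Fintype.linearCombination_apply, smul_tmul']

theorem hasBasis_iff_surjective {I : Ideal (M.Ap A)} (h : IsDivDeg I r) (b : Fin r → M.Rp) :
    HasBasis I b ↔ Function.Surjective (basisMap I b) := by
  have hfun : ⇑(basisMap I b) =
      fun a : Fin r → A => Ideal.Quotient.mk I (∑ i, a i ⊗ₜ[k] b i) :=
    funext (basisMap_apply I b)
  rw [HasBasis, ← hfun]
  refine ⟨fun h' => h'.2, fun h' => ⟨?_, h'⟩⟩
  haveI := h.finite
  haveI := h.projective
  obtain ⟨σ, hσ⟩ := Module.projective_lifting_property (basisMap I b) LinearMap.id h'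
  let K := LinearMap.ker (basisMap I b)
  let e : (Fin r → A) ≃ₗ[A] K × (M.Ap A ⧸ I) :=
    LinearEquiv.ofBijective ((LinearMap.codRestrict K (LinearMap.id - σ.comp (basisMap I b))
        fun a => by
          have := congrArg (fun g => g (basisMap I b a)) hσ
          simp only [LinearMap.comp_apply, LinearMap.id_apply] at this
          simp [K, LinearMap.mem_ker, map_sub, this]).prod (basisMap I b))
      ⟨fun a a' ha => by
          have h1 := congrArg (fun t => (t.1 : Fin r → A)) ha
          have h2 := congrArg Prod.snd ha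
          simp only [LinearMap.prod_apply, Function.prod_apply, LinearMap.codRestrict_apply,
            LinearMap.sub_apply, LinearMap.id_apply, LinearMap.comp_apply] at h1 h2
          rw [h2] at h1
          exact sub_left_inj.mp h1,
        fun ⟨⟨x, hx⟩, q⟩ => ⟨x + σ q, by
          have hq := congrArg (fun g => g q) hσ
          simp only [LinearMap.comp_apply, LinearMap.id_apply] at hq
          rw [LinearMap.mem_ker] at hx
          ext <;> simp [map_add, hx, hq]⟩⟩
  haveI : Module.Projective A (K × (M.Ap A ⧸ I)) := Module.Projective.of_equiv e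
  haveI : Module.Finite A (K × (M.Ap A ⧸ I)) := Module.Finite.equiv e
  haveI : Module.Projective A K := Module.Projective.of_split
    (LinearMap.inl A K (M.Ap A ⧸ I)) (LinearMap.fst A K (M.Ap A ⧸ I)) (by ext; simp)
  haveI : Module.Finite A K := Module.Finite.of_surjective
    (LinearMap.fst A K (M.Ap A ⧸ I)) fun x => ⟨(x, 0), rfl⟩
  have hK : Module.rankAtStalk (R := A) K = 0 := by
    funext p
    haveI : Nontrivial A := RingHom.domain_nontrivial (algebraMap A (A ⧸ p.asIdeal))
    have := congrFun (Module.rankAtStalk_eq_of_equiv e) p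
    rw [Module.rankAtStalk_eq_finrank_of_free, Module.rankAtStalk_prod, Pi.add_apply, h.rank p]
      at this
    have h2 : (r : ℕ) = Module.rankAtStalk (R := A) K p + r := by simpa using this
    show Module.rankAtStalk (R := A) K p = 0
    omega
  haveI := Module.rankAtStalk_eq_zero_iff_subsingleton.mp hK
  rw [← LinearMap.ker_eq_bot, Submodule.eq_bot_iff]
  intro x hx
  exact congrArg Subtype.val (Subsingleton.elim (⟨x, hx⟩ : K) 0)

theorem basisSpan_eq_top_iff (I : Ideal (M.Ap A)) (b : Fin r → M.Rp) :
    basisSpan I b = ⊤ ↔ Function.Surjective (basisMap I b) := by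
  constructor
  · intro h q
    obtain ⟨y, rfl⟩ := Ideal.Quotient.mk_surjective q
    obtain ⟨z, hz, w, hw, rfl⟩ := Submodule.mem_sup.mp (h ▸ Submodule.mem_top : y ∈ basisSpan I b)
    obtain ⟨a, rfl⟩ := (Submodule.mem_span_range_iff_exists_fun A).mp hw
    refine ⟨a, ?_⟩
    rw [basisMap_apply, Ideal.Quotient.eq]
    have : ∑ i, a i ⊗ₜ[k] b i = ∑ i, a i • ((1 : A) ⊗ₜ[k] b i) := by simp [smul_tmul']
    rw [this, sub_add_eq_sub_sub, sub_right_comm, sub_self, zero_sub]
    exact neg_mem hz
  · intro h
    refine eq_top_iff.mpr fun y _ => ?_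
    obtain ⟨a, ha⟩ := h (Ideal.Quotient.mk I y)
    rw [basisMap_apply, Ideal.Quotient.eq] at ha
    refine Submodule.mem_sup.mpr ⟨y - ∑ i, a i ⊗ₜ[k] b i, ?_, ∑ i, a i ⊗ₜ[k] b i, ?_, by abel⟩
    · simpa using neg_mem ha
    · exact Submodule.sum_mem _ fun i _ => by
        rw [show a i ⊗ₜ[k] b i = a i • ((1 : A) ⊗ₜ[k] b i) by simp [smul_tmul']]
        exact Submodule.smul_mem _ _ (Submodule.subset_span ⟨i, rfl⟩)

theorem mapP_smul (f : A →ₐ[k] B) (a : A) (y : M.Ap A) :
    M.mapP f (a • y) = f a • M.mapP f y := by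
  induction y using TensorProduct.induction_on with
  | zero => simp
  | tmul c s => simp [Model.mapP, smul_tmul']
  | add y y' h h' => simp [smul_add, h, h']

theorem range_comap_subset_of_basisSpan_eq_top {I : Ideal (M.Ap A)} (b : Fin r → M.Rp)
    [Module.Finite A (M.Ap A ⧸ basisSpan I b)] (f : A →ₐ[k] B)
    (h : basisSpan (I.map (M.mapP f)) b = ⊤) :
    Set.range (PrimeSpectrum.comap f.toRingHom) ⊆
      (Module.support A (M.Ap A ⧸ basisSpan I b))ᶜ := by
  rintro _ ⟨q, rfl⟩ hmem
  let ι : B →ₐ[k] q.asIdeal.ResidueField := IsScalarTower.toAlgHom k B _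
  let p := PrimeSpectrum.comap f.toRingHom q
  have hnt := (Module.mem_support_iff_nontrivial_residueField_tensorProduct
    (M := M.Ap A ⧸ basisSpan I b) p).mp hmem
  let g : p.asIdeal.ResidueField →+* q.asIdeal.ResidueField :=
    Ideal.ResidueField.map p.asIdeal q.asIdeal f.toRingHom rfl
  have hg : ∀ a : A, g (algebraMap A _ a) = ι (f a) := fun a => by
    show Ideal.ResidueField.map p.asIdeal q.asIdeal f.toRingHom rfl _ = _
    simp [IsScalarTower.toAlgHom_apply, ι]
  obtain ⟨z, hz⟩ := exists_ne (0 : p.asIdeal.ResidueField ⊗[A] (M.Ap A ⧸ basisSpan I b))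
  obtain ⟨l, hl⟩ : ∃ l : Module.Dual p.asIdeal.ResidueField
      (p.asIdeal.ResidueField ⊗[A] (M.Ap A ⧸ basisSpan I b)), l z ≠ 0 := by
    by_contra! hh
    exact hz ((Module.forall_dual_apply_eq_zero_iff _ z).mp hh)
  let L : M.Ap A → q.asIdeal.ResidueField := fun y =>
    g (l (1 ⊗ₜ[A] Submodule.Quotient.mk y))
  have hLadd : ∀ y y', L (y + y') = L y + L y' := fun y y' => by
    simp [L, tmul_add, map_add]
  have hLsmul : ∀ (a : A) y, L (a • y) = ι (f a) * L y := fun a y => by
    simp only [L, Submodule.Quotient.mk_smul]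
    rw [tmul_smul, ← IsScalarTower.algebraMap_smul p.asIdeal.ResidueField a, map_smul,
      smul_eq_mul, map_mul, hg]
  let Lk : M.Rp →ₗ[k] q.asIdeal.ResidueField :=
    { toFun := fun s => L (1 ⊗ₜ s)
      map_add' := fun s s' => by rw [tmul_add, hLadd]
      map_smul' := fun c s => by
        rw [tmul_smul, ← IsScalarTower.algebraMap_smul A c, hLsmul, RingHom.id_apply,
          AlgHom.commutes, AlgHom.commutes, ← Algebra.smul_def] }
  let Λ : M.Ap B →ₗ[B] q.asIdeal.ResidueField := LinearMap.liftBaseChange B Lk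
  have hΛ : ∀ y : M.Ap A, Λ (M.mapP f y) = L y := by
    intro y
    induction y using TensorProduct.induction_on with
    | zero =>
      rw [map_zero, map_zero]
      have := hLsmul 0 0
      simpa using this.symm
    | tmul a s =>
      rw [show (a ⊗ₜ[k] s : M.Ap A) = a • ((1 : A) ⊗ₜ[k] s) by simp [smul_tmul'], hLsmul,
        mapP_smul, map_smul, Algebra.smul_def, IsScalarTower.toAlgHom_apply]
      simp [Λ, Lk, Model.mapP, ι]
    | add y y' h h' => rw [map_add, map_add, h, h', hLadd]
  have hker : ⊤ ≤ LinearMap.ker Λ := by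
    rw [← h, basisSpan, sup_le_iff, Submodule.span_le]
    refine ⟨fun y hy => ?_, ?_⟩
    · rw [Submodule.restrictScalars_mem, Ideal.map] at hy
      have : y ∈ Submodule.span B (M.mapP f '' (I : Set (M.Ap A))) := by
        refine Submodule.span_induction (p := fun y _ => y ∈ Submodule.span B
          (M.mapP f '' (I : Set (M.Ap A)))) (fun y hy => Submodule.subset_span hy)
          (zero_mem _) (fun y y' _ _ h h' => add_mem h h') (fun c y _ hy => ?_) hy
        induction c using TensorProduct.induction_on with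
        | zero => simp
        | tmul c s =>
          refine Submodule.span_induction (p := fun y _ => (c ⊗ₜ[k] s) • y ∈ Submodule.span B
            (M.mapP f '' (I : Set (M.Ap A)))) ?_ (by simp) (fun y y' _ _ h h' => by
              rw [smul_add]; exact add_mem h h') (fun d y _ h => by
              rw [smul_comm]; exact Submodule.smul_mem _ d h) hy
          rintro _ ⟨x, hx, rfl⟩
          have : (c ⊗ₜ[k] s) • M.mapP f x = c • M.mapP f (((1 : A) ⊗ₜ[k] s) * x) := by
            rw [map_mul, smul_eq_mul, ← smul_mul_assoc]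
            congr 1
            simp [Model.mapP, smul_tmul']
          rw [this]
          exact Submodule.smul_mem _ c (Submodule.subset_span ⟨_, I.mul_mem_left _ hx, rfl⟩)
        | add c c' h h' => rw [add_smul]; exact add_mem h h'
      refine Submodule.span_le.mpr ?_ this
      rintro _ ⟨x, hx, rfl⟩
      simp only [SetLike.mem_coe, LinearMap.mem_ker, hΛ, L]
      have h0 : Submodule.Quotient.mk (p := basisSpan I b) x = 0 :=
        (Submodule.Quotient.mk_eq_zero _).mpr (Submodule.mem_sup_left hx)
      rw [h0]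
      simp
    · rintro _ ⟨i, rfl⟩
      have : ((1 : B) ⊗ₜ[k] b i) = M.mapP f ((1 : A) ⊗ₜ[k] b i) := by simp [Model.mapP]
      simp only [SetLike.mem_coe, LinearMap.mem_ker]
      rw [this, hΛ]
      simp only [L]
      have h0 : Submodule.Quotient.mk (p := basisSpan I b) ((1 : A) ⊗ₜ[k] b i) = 0 :=
        (Submodule.Quotient.mk_eq_zero _).mpr
          (Submodule.mem_sup_right (Submodule.subset_span (Set.mem_range_self i)))
      rw [h0]
      simp
  apply hl
  clear hl hz
  have hall : ∀ q', l (1 ⊗ₜ[A] q') = 0 := fun q' => by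
    obtain ⟨y, rfl⟩ := Submodule.Quotient.mk_surjective _ q'
    have h0 : Λ (M.mapP f y) = 0 := hker Submodule.mem_top
    rw [hΛ] at h0
    exact g.injective (h0.trans (map_zero g).symm)
  induction z using TensorProduct.induction_on with
  | zero => simp
  | tmul c q' =>
    rw [show c ⊗ₜ[A] q' = c • ((1 : p.asIdeal.ResidueField) ⊗ₜ[A] q') by simp [smul_tmul'],
      map_smul, hall, smul_zero]
  | add z z' h h' => rw [map_add, h, h', add_zero]

theorem basisSpan_eq_top_of_range_comap_subset {I : Ideal (M.Ap A)} (b : Fin r → M.Rp)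
    [Module.Finite A (M.Ap A ⧸ basisSpan I b)] (f : A →ₐ[k] B)
    (h : Set.range (PrimeSpectrum.comap f.toRingHom) ⊆
      (Module.support A (M.Ap A ⧸ basisSpan I b))ᶜ) :
    basisSpan (I.map (M.mapP f)) b = ⊤ := by
  set W := basisSpan (I.map (M.mapP f)) b
  have hspan : Ideal.map f.toRingHom (Module.annihilator A (M.Ap A ⧸ basisSpan I b)) = ⊤ := by
    by_contra hne
    obtain ⟨m, hm, hle⟩ := Ideal.exists_le_maximal _ hne
    refine h ⟨⟨m, hm.isPrime⟩, rfl⟩ ?_
    rw [Module.mem_support_iff_of_finite]
    exact Ideal.map_le_iff_le_comap.mp hle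
  have hmem : ∀ y : M.Ap A, y ∈ basisSpan I b → M.mapP f y ∈ W := by
    intro y hy
    obtain ⟨z, hz, w, hw, rfl⟩ := Submodule.mem_sup.mp hy
    rw [map_add]
    refine add_mem (Submodule.mem_sup_left (Ideal.mem_map_of_mem _ hz)) ?_
    refine Submodule.span_induction (p := fun w _ => M.mapP f w ∈ W) ?_ (by simp)
      (fun w w' _ _ h h' => by rw [map_add]; exact add_mem h h')
      (fun a w _ h => by rw [mapP_smul]; exact Submodule.smul_mem _ _ h) hw
    rintro _ ⟨i, rfl⟩
    refine Submodule.mem_sup_right (Submodule.subset_span ⟨i, ?_⟩)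
    simp [Model.mapP]
  let T : Ideal B :=
    { carrier := {c | ∀ s : M.Rp, c • ((1 : B) ⊗ₜ[k] s) ∈ W}
      add_mem' := fun {c c'} hc hc' s => by rw [add_smul]; exact add_mem (hc s) (hc' s)
      zero_mem' := fun s => by simp
      smul_mem' := fun d c hc s => by rw [smul_assoc]; exact Submodule.smul_mem _ _ (hc s) }
  have hT : T = ⊤ := by
    rw [eq_top_iff, ← hspan, Ideal.map_le_iff_le_comap]
    intro a ha s
    have h1 : a • ((1 : A) ⊗ₜ[k] s) ∈ basisSpan I b := by
      rw [← Submodule.Quotient.mk_eq_zero, Submodule.Quotient.mk_smul]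
      exact Module.mem_annihilator.mp ha _
    have := hmem _ h1
    rw [mapP_smul] at this
    simpa [Model.mapP] using this
  refine eq_top_iff.mpr fun y _ => ?_
  induction y using TensorProduct.induction_on with
  | zero => simp
  | tmul c s =>
    have hc : c ∈ T := hT ▸ Submodule.mem_top
    simpa [smul_tmul'] using hc s
  | add y y' h h' => exact add_mem (h trivial) (h' trivial)

theorem exists_hasBasis_open {I : Ideal (M.Ap A)} (h : IsDivDeg I r) (b : Fin r → M.Rp) :
    ∃ U : Set (PrimeSpectrum A), IsOpen U ∧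
      ∀ {B : Type u} [CommRing B] [Algebra k B] (f : A →ₐ[k] B),
        (HasBasis (I.map (M.mapP f)) b ↔ Set.range (PrimeSpectrum.comap f.toRingHom) ⊆ U) := by
  haveI := h.finite
  haveI : Module.Finite A (M.Ap A ⧸ basisSpan I b) := Module.Finite.of_surjective
    (Submodule.liftQ (I.restrictScalars A) (basisSpan I b).mkQ (by
      rw [Submodule.ker_mkQ]; exact le_sup_left) ∘ₗ
      (Submodule.Quotient.restrictScalarsEquiv A I).symm.toLinearMap)
    (by
      intro q
      obtain ⟨y, rfl⟩ := Submodule.Quotient.mk_surjective _ q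
      exact ⟨Submodule.Quotient.mk y, rfl⟩)
  refine ⟨(Module.support A (M.Ap A ⧸ basisSpan I b))ᶜ, ?_, fun {B} _ _ f => ?_⟩
  · rw [Module.support_eq_zeroLocus]
    exact (PrimeSpectrum.isClosed_zeroLocus _).isOpen_compl
  rw [hasBasis_iff_surjective (IsDivDeg.map h f), ← basisSpan_eq_top_iff]
  exact ⟨range_comap_subset_of_basisSpan_eq_top b f, basisSpan_eq_top_of_range_comap_subset b f⟩

end

end FLTAgent.Jac
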