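import Mathlib

/-!
# S25: semilinear maps of invertible modules along a ring map
-/

set_option autoImplicit false
set_option linter.style.haveILetI false

universe u

open TensorProduct

namespace FLTAgent.Jac

variable {R S : Type u} [CommRing R] [CommRing S] {g : R →+* S}

/-- In a projective module, an element killed by base change lies in `ker • P`. -/
theorem mem_ker_smul_top_of_tmul_eq_zero [Algebra R S] {P : Type u} [AddCommGroup P] [Module R P]
    [Module.Projective R P] {z : P} (hz : (1 : S) ⊗ₜ[R] z = 0) :
    z ∈ RingHom.ker (algebraMap R S) • (⊤ : Submodule R P) := by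
  obtain ⟨s, hs⟩ := Module.projective_def'.mp ‹Module.Projective R P›
  have hzs : z = ∑ p ∈ (s z).support, (s z) p • p := by
    conv_lhs => rw [← LinearMap.id_apply (R := R) z, ← hs]
    rw [LinearMap.comp_apply, Finsupp.linearCombination_apply, Finsupp.sum]
    rfl
  rw [hzs]
  refine Submodule.sum_mem _ fun p _ => Submodule.smul_mem_smul ?_ trivial
  have h := congrArg (fun t => TensorProduct.rid R S
    (LinearMap.lTensor S ((Finsupp.lapply p).comp s) t)) hz
  simpa [Algebra.smul_def] using h

/-- Semilinear map with spanning image, seen from the base change. -/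
theorem exists_baseChangeEquiv {P P' : Type u} [AddCommGroup P] [Module R P]
    [Module.Invertible R P] [AddCommGroup P'] [Module S P'] [Module.Invertible S P']
    (φ : P →ₛₗ[g] P') (hφ : Submodule.span S (Set.range φ) = ⊤) :
    letI := g.toAlgebra
    ∃ e : S ⊗[R] P ≃ₗ[S] P', ∀ (s : S) (z : P), e (s ⊗ₜ z) = s • φ z := by
  letI := g.toAlgebra
  letI : Module R P' := Module.compHom P' g
  haveI : IsScalarTower R S P' := ⟨fun r s p => by
    change (g r * s) • p = g r • (s • p)
    rw [mul_smul]⟩
  let φR : P →ₗ[R] P' :=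
    { toFun := φ, map_add' := map_add φ, map_smul' := fun r z => φ.map_smulₛₗ r z }
  let Φ : S ⊗[R] P →ₗ[S] P' := LinearMap.liftBaseChange S φR
  have hsurj : Function.Surjective Φ := by
    rw [← LinearMap.range_eq_top, eq_top_iff, ← hφ, Submodule.span_le]
    rintro _ ⟨z, rfl⟩
    exact ⟨1 ⊗ₜ z, by simp [Φ, φR]⟩
  refine ⟨LinearEquiv.ofBijective Φ (Module.Invertible.bijective_of_surjective hsurj),
    fun s z => ?_⟩
  simp [Φ, φR]

/-- The kernel of a spanning semilinear map of invertible modules. -/
theorem mem_ker_smul_top_of_apply_eq_zero {P P' : Type u} [AddCommGroup P] [Module R P]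
    [Module.Invertible R P] [AddCommGroup P'] [Module S P'] [Module.Invertible S P']
    (φ : P →ₛₗ[g] P') (hφ : Submodule.span S (Set.range φ) = ⊤) {z : P} (hz : φ z = 0) :
    z ∈ RingHom.ker g • (⊤ : Submodule R P) := by
  letI := g.toAlgebra
  obtain ⟨e, he⟩ := exists_baseChangeEquiv φ hφ
  exact mem_ker_smul_top_of_tmul_eq_zero (S := S)
    (e.injective (by rw [he, map_zero, one_smul, hz]))

theorem injective_of_ker_eq_bot {P P' : Type u} [AddCommGroup P] [Module R P]
    [Module.Invertible R P] [AddCommGroup P'] [Module S P'] [Module.Invertible S P']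
    (φ : P →ₛₗ[g] P') (hφ : Submodule.span S (Set.range φ) = ⊤) (hg : RingHom.ker g = ⊥) :
    Function.Injective φ := by
  intro a b h
  have := mem_ker_smul_top_of_apply_eq_zero φ hφ (z := a - b) (by rw [map_sub, h, sub_self])
  rw [hg, Submodule.bot_smul, Submodule.mem_bot, sub_eq_zero] at this
  exact this

/-- A semilinear map factors through a spanning semilinear map of invertible modules. -/
theorem exists_semilinear_extend {P P' Q : Type u} [AddCommGroup P] [Module R P]
    [Module.Invertible R P] [AddCommGroup P'] [Module S P'] [Module.Invertible S P']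
    [AddCommGroup Q] [Module S Q]
    (φ : P →ₛₗ[g] P') (hφ : Submodule.span S (Set.range φ) = ⊤) (h : P →ₛₗ[g] Q) :
    ∃ h' : P' →ₗ[S] Q, ∀ z, h' (φ z) = h z := by
  letI := g.toAlgebra
  letI : Module R Q := Module.compHom Q g
  haveI : IsScalarTower R S Q := ⟨fun r s p => by
    change (g r * s) • p = g r • (s • p)
    rw [mul_smul]⟩
  let hR : P →ₗ[R] Q :=
    { toFun := h, map_add' := map_add h, map_smul' := fun r z => h.map_smulₛₗ r z }
  obtain ⟨e, he⟩ := exists_baseChangeEquiv φ hφ
  refine ⟨(LinearMap.liftBaseChange S hR).comp e.symm.toLinearMap, fun z => ?_⟩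
  have : e.symm (φ z) = 1 ⊗ₜ z := by rw [LinearEquiv.symm_apply_eq, he, one_smul]
  simp [this, hR]

theorem linearMap_ext_of_span {P P' Q : Type u} [AddCommGroup P] [Module R P]
    [AddCommGroup P'] [Module S P'] [AddCommGroup Q] [Module S Q]
    {φ : P →ₛₗ[g] P'} (hφ : Submodule.span S (Set.range φ) = ⊤) {h₁ h₂ : P' →ₗ[S] Q}
    (h : ∀ z, h₁ (φ z) = h₂ (φ z)) : h₁ = h₂ :=
  LinearMap.ext_on hφ (by rintro _ ⟨z, rfl⟩; exact h z)

/-- A nonzero map between invertible modules over a domain is injective. -/
theorem injective_of_ne_zero {D : Type u} [CommRing D] [IsDomain D] {P Q : Type u}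
    [AddCommGroup P] [Module D P] [Module.Invertible D P] [AddCommGroup Q] [Module D Q]
    [Module.Invertible D Q] (f : P →ₗ[D] Q) (hf : f ≠ 0) : Function.Injective f := by
  obtain ⟨I, ⟨e⟩⟩ := Module.Invertible.exists_linearEquiv_ideal D P
  obtain ⟨s, hs⟩ := Module.projective_def'.mp (inferInstance : Module.Projective D Q)
  rw [← LinearMap.ker_eq_bot, Submodule.eq_bot_iff]
  intro z hz
  by_contra hne
  refine hf (LinearMap.ext fun w => ?_)
  have hez : (e z : D) ≠ 0 := fun h => hne (e.injective (by rw [map_zero]; exact Subtype.ext h))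
  have hzw : (e z : D) • w = (e w : D) • z := e.injective (by
    rw [map_smul, map_smul]
    exact Subtype.ext (mul_comm _ _))
  have h0 : (e z : D) • f w = 0 := by
    rw [← map_smul, hzw, map_smul, LinearMap.mem_ker.mp hz, smul_zero]
  have h1 : (e z : D) • s (f w) = 0 := by rw [← map_smul, h0, map_zero]
  have h2 : s (f w) = 0 := by
    ext p
    have := congrArg (fun t => t p) h1
    simpa [hez] using this
  have := congrArg (fun t => t (f w)) hs
  simpa [h2] using this.symm

end FLTAgent.Jac
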